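/-
GATE-Z (S15) / node (NUM*) = GZ-NUM, file 1 (helper46): **the half-rank principle at a maximal
ideal** (Mathlib + helper74's `GB/B3/Loc.lean`).

`𝒪` a complete discrete valuation ring of characteristic `0` in which `2` is a unit, `A` a
commutative `𝒪`-algebra acting on a finite free `𝒪`-module `L`, `ι : L →ₗ[A] L` an involution with

  (TR)   `tr_𝒪 (a ∘ ι | L) = 0`   for every `a : A`

(on the lattice `Λ = Hom_par(Γ₀(N), ℤ)`: `ι` = the character involution, `A` = the Hecke ring,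
(TR) = `GK/Tate/TraceInvol.trace_mul_latI`).  Then for EVERY maximal ideal `𝔪` of `A`:

* `finrank_locPlus_eq_finrank_locMinus` : the `ι = +1` and `ι = -1` parts of the `𝔪`-primary part
  `locPart 𝔪 L` have the same `𝒪`-rank;
* `nonempty_addEquiv_plus_minus` : for every `A`-linear surjection `π : L → V` with kernel `ϖ L`
  (`V = L / ϖ L`), intertwining `ι` with `ιV : V →ₗ[A] V`, the groups
  `(locPart 𝔪 V)^{ιV = +1}` and `(locPart 𝔪 V)^{ιV = -1}` are isomorphic.

Proof: the idempotent `s₀ ∈ A` of `locPart 𝔪 L` (`Loc.parts_eq`) gives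
`0 = tr (s₀ ι | L) = tr (ι | L_𝔪) = rank⁺ - rank⁻` (`LinearMap.trace_restrict_eq_of_forall_mem`).
-/
import Mathlib
import Fermat.Agent.GB.B3.Loc

set_option autoImplicit false
set_option linter.unusedSectionVars false

namespace Fermat.Agent.GZ.Num.HalfRank

open Module Fermat.Agent.GB.B3.Loc

/-! ### The two eigenspaces of an endomorphism -/

section Parts

variable {R : Type*} [CommRing R] {M : Type*} [AddCommGroup M] [Module R M]

/-- the `+1`-eigenspace -/
def plusPart (ι : M →ₗ[R] M) : Submodule R M := LinearMap.ker (ι - LinearMap.id)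

/-- the `-1`-eigenspace -/
def minusPart (ι : M →ₗ[R] M) : Submodule R M := LinearMap.ker (ι + LinearMap.id)

theorem mem_plusPart {ι : M →ₗ[R] M} {x : M} : x ∈ plusPart ι ↔ ι x = x := by
  rw [plusPart, LinearMap.mem_ker, LinearMap.sub_apply, LinearMap.id_apply, sub_eq_zero]

theorem mem_minusPart {ι : M →ₗ[R] M} {x : M} : x ∈ minusPart ι ↔ ι x = -x := by
  rw [minusPart, LinearMap.mem_ker, LinearMap.add_apply, LinearMap.id_apply,
    add_eq_zero_iff_eq_neg]

/-- `u (1 + ι)`, the projector onto the `+1`-eigenspace when `2 u = 1` -/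
def projPlus (u : R) (ι : M →ₗ[R] M) : M →ₗ[R] M := u • (LinearMap.id + ι)

/-- `u (1 - ι)`, the projector onto the `-1`-eigenspace when `2 u = 1` -/
def projMinus (u : R) (ι : M →ₗ[R] M) : M →ₗ[R] M := u • (LinearMap.id - ι)

theorem projPlus_apply (u : R) (ι : M →ₗ[R] M) (x : M) : projPlus u ι x = u • (x + ι x) := rfl

theorem projMinus_apply (u : R) (ι : M →ₗ[R] M) (x : M) : projMinus u ι x = u • (x - ι x) := rfl

variable {u : R} (hu : 2 * u = 1) {ι : M →ₗ[R] M} (hι : ∀ x, ι (ι x) = x)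

include hu in
theorem two_smul_cancel (x : M) : u • (x + x) = x := by
  rw [← two_smul R x, smul_smul, mul_comm, hu, one_smul]

include hu hι in
theorem isProj_projPlus : LinearMap.IsProj (plusPart ι) (projPlus u ι) := by
  refine ⟨fun x => ?_, fun x hx => ?_⟩
  · rw [mem_plusPart, projPlus_apply, map_smul, map_add, hι, add_comm]
  · rw [projPlus_apply, mem_plusPart.1 hx, two_smul_cancel hu]

include hu hι in
theorem isProj_projMinus : LinearMap.IsProj (minusPart ι) (projMinus u ι) := by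
  refine ⟨fun x => ?_, fun x hx => ?_⟩
  · rw [mem_minusPart, projMinus_apply, map_smul, map_sub, hι, ← smul_neg, neg_sub]
  · rw [projMinus_apply, mem_minusPart.1 hx, sub_neg_eq_add, two_smul_cancel hu]

include hu in
theorem ker_projPlus : LinearMap.ker (projPlus u ι) = minusPart ι := by
  ext x
  rw [LinearMap.mem_ker, mem_minusPart, projPlus_apply]
  constructor
  · intro h
    have h2 : (2 : R) • u • (x + ι x) = 0 := by rw [h, smul_zero]
    rw [smul_smul, hu, one_smul] at h2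
    exact eq_neg_of_add_eq_zero_right h2
  · intro h
    rw [h, add_neg_cancel, smul_zero]

include hu in
theorem ker_projMinus : LinearMap.ker (projMinus u ι) = plusPart ι := by
  ext x
  rw [LinearMap.mem_ker, mem_plusPart, projMinus_apply]
  constructor
  · intro h
    have h2 : (2 : R) • u • (x - ι x) = 0 := by rw [h, smul_zero]
    rw [smul_smul, hu, one_smul] at h2
    exact (sub_eq_zero.1 h2).symm
  · intro h
    rw [h, sub_self, smul_zero]

include hu in
theorem projPlus_sub_projMinus : projPlus u ι - projMinus u ι = ι := by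
  ext x
  rw [LinearMap.sub_apply, projPlus_apply, projMinus_apply, ← smul_sub]
  have : x + ι x - (x - ι x) = ι x + ι x := by abel
  rw [this, two_smul_cancel hu]

include hu in
theorem projPlus_add_projMinus (x : M) : projPlus u ι x + projMinus u ι x = x := by
  rw [projPlus_apply, projMinus_apply, ← smul_add]
  have : x + ι x + (x - ι x) = x + x := by abel
  rw [this, two_smul_cancel hu]

include hu hι in
/-- **the trace of an involution** is the difference of the ranks of its eigenspaces -/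
theorem trace_eq_finrank_sub [IsDomain R] [IsPrincipalIdealRing R] [Module.Finite R M]
    [Module.Free R M] :
    LinearMap.trace R M ι = (finrank R (plusPart ι) : R) - (finrank R (minusPart ι) : R) := by
  have h1 : LinearMap.trace R M (projPlus u ι) = (finrank R (plusPart ι) : R) :=
    (isProj_projPlus hu hι).trace
  have h2 : LinearMap.trace R M (projMinus u ι) = (finrank R (minusPart ι) : R) :=
    (isProj_projMinus hu hι).trace
  rw [← h1, ← h2, ← map_sub, projPlus_sub_projMinus hu]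

include hu hι in
/-- an involution of trace zero has eigenspaces of equal rank -/
theorem finrank_plus_eq_finrank_minus [IsDomain R] [IsPrincipalIdealRing R] [CharZero R]
    [Module.Finite R M] [Module.Free R M] (htr : LinearMap.trace R M ι = 0) :
    finrank R (plusPart ι) = finrank R (minusPart ι) := by
  have h := trace_eq_finrank_sub hu hι
  rw [htr] at h
  exact_mod_cast (sub_eq_zero.1 h.symm)

end Parts

/-! ### The half-rank principle -/

section Main

variable {𝒪 : Type} [CommRing 𝒪] [IsLocalRing 𝒪] [IsNoetherianRing 𝒪]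
  [IsAdicComplete (IsLocalRing.maximalIdeal 𝒪) 𝒪] [IsDomain 𝒪] [IsPrincipalIdealRing 𝒪]
  [CharZero 𝒪]
variable {A : Type} [CommRing A] [Algebra 𝒪 A]
variable {L : Type*} [AddCommGroup L] [Module 𝒪 L] [Module A L] [IsScalarTower 𝒪 A L]
  [Module.Finite 𝒪 L] [Module.Free 𝒪 L]

/-- the `𝒪`-linear endomorphism `x ↦ a • ι x` -/
def smulComp (𝒪 : Type) [CommRing 𝒪] {A : Type} [CommRing A] [Algebra 𝒪 A] {L : Type*}
    [AddCommGroup L] [Module 𝒪 L] [Module A L] [IsScalarTower 𝒪 A L] (a : A) (ι : L →ₗ[A] L) :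
    L →ₗ[𝒪] L :=
  ((LinearMap.lsmul A L a).comp ι).restrictScalars 𝒪

@[simp] theorem smulComp_apply (a : A) (ι : L →ₗ[A] L) (x : L) :
    smulComp 𝒪 a ι x = a • ι x := rfl

/-- the `+1`-part of the `𝔪`-primary part, as an `A`-submodule -/
def locPlus {A : Type*} [CommRing A] {L : Type*} [AddCommGroup L] [Module A L] (𝔪 : Ideal A)
    [𝔪.IsPrime] (ι : L →ₗ[A] L) : Submodule A L :=
  locPart 𝔪 L ⊓ plusPart ι

/-- the `-1`-part of the `𝔪`-primary part, as an `A`-submodule -/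
def locMinus {A : Type*} [CommRing A] {L : Type*} [AddCommGroup L] [Module A L] (𝔪 : Ideal A)
    [𝔪.IsPrime] (ι : L →ₗ[A] L) : Submodule A L :=
  locPart 𝔪 L ⊓ minusPart ι

variable {u : 𝒪} (hu : 2 * u = 1) {ι : L →ₗ[A] L} (hι : ∀ x, ι (ι x) = x)
  (htr : ∀ a : A, LinearMap.trace 𝒪 L (smulComp 𝒪 a ι) = 0)
  (𝔪 : Ideal A) [h𝔪 : 𝔪.IsMaximal]

include hu hι htr in
/-- **Half-rank principle**: under (TR), the `±1`-eigenspaces of `ι` on the `𝔪`-primary part
`locPart 𝔪 L` have the same `𝒪`-rank, for every maximal ideal `𝔪` of `A`. -/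
theorem finrank_locPlus_eq_finrank_locMinus :
    finrank 𝒪 ((locPlus 𝔪 ι).restrictScalars 𝒪) =
      finrank 𝒪 ((locMinus 𝔪 ι).restrictScalars 𝒪) := by
  obtain ⟨s₀, -, hidem, hloc, -⟩ := parts_eq 𝒪 (L := L) 𝔪
  set P : Submodule 𝒪 L := (locPart 𝔪 L).restrictScalars 𝒪 with hP
  have hmemP : ∀ x : L, x ∈ P ↔ x ∈ locPart 𝔪 L := fun x => Iff.rfl
  have hs₀mem : ∀ x : L, s₀ • x ∈ locPart 𝔪 L := fun x => by
    rw [hloc]; exact ⟨x, rfl⟩
  have hs₀fix : ∀ x ∈ locPart 𝔪 L, s₀ • x = x := by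
    intro x hx
    rw [hloc] at hx
    obtain ⟨y, rfl⟩ := hx
    exact hidem y
  have hιP : ∀ x ∈ P, (ι.restrictScalars 𝒪) x ∈ P := fun x hx =>
    apply_mem_locPart ι hx
  -- the trace of `ι` on `P` vanishes
  have hf : ∀ x, smulComp 𝒪 s₀ ι x ∈ P := fun x => hs₀mem _
  have hf' : ∀ x ∈ P, smulComp 𝒪 s₀ ι x ∈ P := fun x _ => hf x
  have h1 : LinearMap.trace 𝒪 P ((smulComp 𝒪 s₀ ι).restrict hf') = 0 := by
    rw [LinearMap.trace_restrict_eq_of_forall_mem P _ hf hf', htr]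
  have h2 : (smulComp 𝒪 s₀ ι).restrict hf' = (ι.restrictScalars 𝒪).restrict hιP := by
    ext x
    rw [LinearMap.coe_restrict_apply, LinearMap.coe_restrict_apply, smulComp_apply]
    exact hs₀fix _ (apply_mem_locPart ι x.2)
  rw [h2] at h1
  set ιP : P →ₗ[𝒪] P := (ι.restrictScalars 𝒪).restrict hιP with hιPdef
  have hιPinv : ∀ x, ιP (ιP x) = x := fun x => Subtype.ext (hι x)
  have h3 := finrank_plus_eq_finrank_minus hu hιPinv h1
  -- transport to submodules of `L`
  have eP : plusPart ιP ≃ₗ[𝒪] (locPlus 𝔪 ι).restrictScalars 𝒪 :=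
    { toFun := fun x => ⟨(x : P), ⟨(x : P).2, mem_plusPart.2 (by
          have := mem_plusPart.1 x.2
          exact congrArg Subtype.val this)⟩⟩
      map_add' := fun _ _ => rfl
      map_smul' := fun _ _ => rfl
      invFun := fun y => ⟨⟨(y : L), y.2.1⟩, mem_plusPart.2 (Subtype.ext (mem_plusPart.1 y.2.2))⟩
      left_inv := fun _ => rfl
      right_inv := fun _ => rfl }
  have eM : minusPart ιP ≃ₗ[𝒪] (locMinus 𝔪 ι).restrictScalars 𝒪 :=
    { toFun := fun x => ⟨(x : P), ⟨(x : P).2, mem_minusPart.2 (by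
          have := mem_minusPart.1 x.2
          exact congrArg Subtype.val this)⟩⟩
      map_add' := fun _ _ => rfl
      map_smul' := fun _ _ => rfl
      invFun := fun y => ⟨⟨(y : L), y.2.1⟩,
        mem_minusPart.2 (Subtype.ext (mem_minusPart.1 y.2.2))⟩
      left_inv := fun _ => rfl
      right_inv := fun _ => rfl }
  rw [← eP.finrank_eq, ← eM.finrank_eq, h3]

/-! ### Reduction modulo the uniformiser -/

omit [IsLocalRing 𝒪] [IsNoetherianRing 𝒪] [IsAdicComplete (IsLocalRing.maximalIdeal 𝒪) 𝒪]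
  [IsDomain 𝒪] [IsPrincipalIdealRing 𝒪] [CharZero 𝒪] [Module.Finite 𝒪 L] [Module.Free 𝒪 L] in
/-- a direct summand `Q = q L` of `L` maps onto `W ⊆ V = L / ϖ L` with kernel `ϖ Q` -/
theorem nonempty_addEquiv_quot {V : Type*} [AddCommGroup V] [Module A V] (ϖ : 𝒪)
    (π : L →ₗ[A] V) (hker : ∀ x, π x = 0 ↔ ∃ y, x = ϖ • y)
    (Q : Submodule A L) (W : Submodule A V) (q : L →ₗ[A] L)
    (hq_mem : ∀ x, q x ∈ Q) (hq_id : ∀ x ∈ Q, q x = x)
    (hQW : ∀ x ∈ Q, π x ∈ W) (hWq : ∀ v ∈ W, ∃ x, π (q x) = v) :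
    Nonempty (((Q.restrictScalars 𝒪) ⧸ (LinearMap.range
      (ϖ • (LinearMap.id : (Q.restrictScalars 𝒪) →ₗ[𝒪] (Q.restrictScalars 𝒪)))).toAddSubgroup)
        ≃+ W) := by
  set Q' : Submodule 𝒪 L := Q.restrictScalars 𝒪
  let g : Q' →+ W :=
    { toFun := fun x => ⟨π (x : L), hQW _ x.2⟩
      map_zero' := Subtype.ext (map_zero π)
      map_add' := fun x y => Subtype.ext (map_add π _ _) }
  have hg : Function.Surjective g := by
    rintro ⟨v, hv⟩
    obtain ⟨x, hx⟩ := hWq v hv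
    exact ⟨⟨q x, hq_mem x⟩, Subtype.ext hx⟩
  have hkerg : g.ker = (LinearMap.range (ϖ • (LinearMap.id : Q' →ₗ[𝒪] Q'))).toAddSubgroup := by
    ext x
    rw [AddMonoidHom.mem_ker, Submodule.mem_toAddSubgroup, LinearMap.mem_range]
    constructor
    · intro hx
      have hx' : π (x : L) = 0 := congrArg Subtype.val hx
      obtain ⟨y, hy⟩ := (hker _).1 hx'
      refine ⟨⟨q y, hq_mem y⟩, Subtype.ext ?_⟩
      show ϖ • q y = (x : L)
      have h1 : q (ϖ • y) = ϖ • q y := by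
        rw [← algebraMap_smul A ϖ y, map_smul, algebraMap_smul]
      rw [← h1, ← hy]
      exact hq_id _ x.2
    · rintro ⟨y, rfl⟩
      apply Subtype.ext
      show π (ϖ • (y : L)) = 0
      exact (hker _).2 ⟨_, rfl⟩
  exact ⟨(QuotientAddGroup.quotientAddEquivOfEq hkerg).symm.trans
    (QuotientAddGroup.quotientKerEquivOfSurjective g hg)⟩

include hu hι htr in
/-- **Half-rank principle modulo `ϖ`**: for `V = L / ϖ L` (any `A`-linear surjection
`π : L → V` with kernel `ϖ L`) with the induced involution `ιV`, the `±1`-eigenspaces of `ιV` on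
the `𝔪`-primary part `locPart 𝔪 V` are isomorphic abelian groups. -/
theorem nonempty_addEquiv_plus_minus {V : Type*} [AddCommGroup V] [Module A V] (ϖ : 𝒪)
    (π : L →ₗ[A] V) (hπ : Function.Surjective π) (hker : ∀ x, π x = 0 ↔ ∃ y, x = ϖ • y)
    (ιV : V →ₗ[A] V) (hπι : ∀ x, π (ι x) = ιV (π x)) :
    Nonempty (locPlus 𝔪 ιV ≃+ locMinus 𝔪 ιV) := by
  obtain ⟨s₀, hs₀, hidem, hloc, -⟩ := parts_eq 𝒪 (L := L) 𝔪
  have hs₀mem : ∀ x : L, s₀ • x ∈ locPart 𝔪 L := fun x => by
    rw [hloc]; exact ⟨x, rfl⟩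
  have hs₀fix : ∀ x ∈ locPart 𝔪 L, s₀ • x = x := by
    intro x hx
    rw [hloc] at hx
    obtain ⟨y, rfl⟩ := hx
    exact hidem y
  have hs₀fixV : ∀ v ∈ locPart 𝔪 V, s₀ • v = v := by
    intro v hv
    obtain ⟨w, rfl⟩ := mem_locPart.1 hv s₀ hs₀
    obtain ⟨y, rfl⟩ := hπ w
    rw [← map_smul, ← map_smul, hidem]
  set uA : A := algebraMap 𝒪 A u with huA
  have huA2 : (2 : A) * uA = 1 := by
    rw [huA, ← map_ofNat (algebraMap 𝒪 A) 2, ← map_mul, hu, map_one]
  -- the two projectors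
  let qP : L →ₗ[A] L := (s₀ * uA) • (LinearMap.id + ι)
  let qM : L →ₗ[A] L := (s₀ * uA) • (LinearMap.id - ι)
  have hqP : ∀ x, qP x = s₀ • uA • (x + ι x) := fun x => by
    show (s₀ * uA) • (x + ι x) = _
    rw [mul_smul]
  have hqM : ∀ x, qM x = s₀ • uA • (x - ι x) := fun x => by
    show (s₀ * uA) • (x - ι x) = _
    rw [mul_smul]
  have hqP_mem : ∀ x, qP x ∈ locPlus 𝔪 ι := fun x => by
    refine ⟨by rw [hqP]; exact hs₀mem _, mem_plusPart.2 ?_⟩
    rw [hqP, map_smul, map_smul, map_add, hι, add_comm]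
  have hqM_mem : ∀ x, qM x ∈ locMinus 𝔪 ι := fun x => by
    refine ⟨by rw [hqM]; exact hs₀mem _, mem_minusPart.2 ?_⟩
    rw [hqM, map_smul, map_smul, map_sub, hι, ← smul_neg, ← smul_neg, neg_sub]
  have hqP_id : ∀ x ∈ locPlus 𝔪 ι, qP x = x := fun x hx => by
    rw [hqP, mem_plusPart.1 hx.2, two_smul_cancel (R := A) huA2, hs₀fix x hx.1]
  have hqM_id : ∀ x ∈ locMinus 𝔪 ι, qM x = x := fun x hx => by
    rw [hqM, mem_minusPart.1 hx.2, sub_neg_eq_add, two_smul_cancel (R := A) huA2, hs₀fix x hx.1]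
  have hPW : ∀ x ∈ locPlus 𝔪 ι, π x ∈ locPlus 𝔪 ιV := fun x hx => by
    refine ⟨apply_mem_locPart π hx.1, mem_plusPart.2 ?_⟩
    rw [← hπι, mem_plusPart.1 hx.2]
  have hMW : ∀ x ∈ locMinus 𝔪 ι, π x ∈ locMinus 𝔪 ιV := fun x hx => by
    refine ⟨apply_mem_locPart π hx.1, mem_minusPart.2 ?_⟩
    rw [← hπι, mem_minusPart.1 hx.2, map_neg]
  have hWP : ∀ v ∈ locPlus 𝔪 ιV, ∃ x, π (qP x) = v := fun v hv => by
    obtain ⟨x, rfl⟩ := hπ v
    refine ⟨x, ?_⟩
    rw [hqP, map_smul, map_smul, map_add, hπι, mem_plusPart.1 hv.2,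
      two_smul_cancel (R := A) huA2, hs₀fixV _ hv.1]
  have hWM : ∀ v ∈ locMinus 𝔪 ιV, ∃ x, π (qM x) = v := fun v hv => by
    obtain ⟨x, rfl⟩ := hπ v
    refine ⟨x, ?_⟩
    rw [hqM, map_smul, map_smul, map_sub, hπι, mem_minusPart.1 hv.2, sub_neg_eq_add,
      two_smul_cancel (R := A) huA2, hs₀fixV _ hv.1]
  obtain ⟨eP⟩ := nonempty_addEquiv_quot ϖ π hker (locPlus 𝔪 ι) (locPlus 𝔪 ιV) qP hqP_mem hqP_id
    hPW hWP
  obtain ⟨eM⟩ := nonempty_addEquiv_quot ϖ π hker (locMinus 𝔪 ι) (locMinus 𝔪 ιV) qM hqM_mem hqM_id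
    hMW hWM
  -- the two lattices are isomorphic
  have hrank := finrank_locPlus_eq_finrank_locMinus hu hι htr 𝔪
  let φ : (locPlus 𝔪 ι).restrictScalars 𝒪 ≃ₗ[𝒪] (locMinus 𝔪 ι).restrictScalars 𝒪 :=
    LinearEquiv.ofFinrankEq _ _ hrank
  have hφ : AddSubgroup.map (φ.toAddEquiv : _ →+ _)
      (LinearMap.range (ϖ • (LinearMap.id : (locPlus 𝔪 ι).restrictScalars 𝒪 →ₗ[𝒪] _))).toAddSubgroup
      = (LinearMap.range
        (ϖ • (LinearMap.id : (locMinus 𝔪 ι).restrictScalars 𝒪 →ₗ[𝒪] _))).toAddSubgroup := by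
    ext y
    rw [AddSubgroup.mem_map, Submodule.mem_toAddSubgroup, LinearMap.mem_range]
    constructor
    · rintro ⟨x, hx, rfl⟩
      rw [Submodule.mem_toAddSubgroup, LinearMap.mem_range] at hx
      obtain ⟨z, rfl⟩ := hx
      refine ⟨φ z, ?_⟩
      show ϖ • φ z = φ (ϖ • z)
      rw [map_smul]
    · rintro ⟨z, rfl⟩
      refine ⟨ϖ • φ.symm z, ?_, ?_⟩
      · rw [Submodule.mem_toAddSubgroup, LinearMap.mem_range]
        exact ⟨φ.symm z, rfl⟩
      · show φ (ϖ • φ.symm z) = ϖ • z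
        rw [map_smul, LinearEquiv.apply_symm_apply]
  exact ⟨eP.symm.trans ((QuotientAddGroup.congr _ _ φ.toAddEquiv hφ).trans eM)⟩

end Main

end Fermat.Agent.GZ.Num.HalfRank
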