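/-
GATE-Z (S15) / node (NUM**) = GZ-NUM, file 3 (helper46): **the all-`k` count, uniform in the
residue characteristic** (`2` NOT assumed invertible; Mathlib + `GB/B3/Loc` + `GZ/Num/HalfRank`).

Setting of `HalfRank.lean` without `2 ∈ 𝒪ˣ`: `𝒪` a complete DVR of characteristic `0`, `L` finite
free, `A` a commutative `𝒪`-algebra acting on `L`, `ι : L →ₗ[A] L` an involution with
(TR) `tr_𝒪 (a ∘ ι) = 0` for all `a : A`, `𝔪` a maximal ideal of `A`.

* `finrank_locPlus_eq_finrank_locMinus'` : the `±1`-eigenspaces of `ι` on `locPart 𝔪 L` have the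
  same rank (proof: `2 rank⁺ = n + tr ι`, `2 rank⁻ = n - tr ι` by
  `LinearMap.trace_restrict_eq_of_forall_mem` applied to `1 ± ι`);
* `card_locPart_le` (NUM** abstract): for `V = L / ϖ^k L` (any `A`-linear surjection
  `π : L → V` with kernel `ϖ^k L`, `ϖ ≠ 0`, `V` finite) and the induced involution `ιV`:

    `#E ≤ #E[2] ^ 3 * #((1 - ιV) E) ^ 2`,   `E := locPart 𝔪 V`.

  [`E[2] = 0` for odd residue characteristic; in general `E[2] ⊆ V[2]` is bounded independently
  of `k`.]  The same with `1 + ιV` (`card_locPart_le'`, apply the first to `-ι`).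
-/
import Mathlib
import Fermat.Agent.GZ.Num.HalfRank

set_option autoImplicit false
set_option linter.unusedSectionVars false

namespace Fermat.Agent.GZ.Num.AllK

open Module Fermat.Agent.GB.B3.Loc Fermat.Agent.GZ.Num.HalfRank

/-! ### Counting in a finite abelian group -/

section Count

variable {V : Type*} [AddCommGroup V]

/-- the `2`-torsion subgroup -/
def twoTors (V : Type*) [AddCommGroup V] : AddSubgroup V where
  carrier := {v | v + v = 0}
  zero_mem' := add_zero 0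
  add_mem' := by
    intro a b ha hb
    show a + b + (a + b) = 0
    have : a + b + (a + b) = (a + a) + (b + b) := by abel
    rw [this, ha, hb, add_zero]
  neg_mem' := by
    intro a ha
    show -a + -a = 0
    rw [← neg_add, ha, neg_zero]

theorem mem_twoTors {v : V} : v ∈ twoTors V ↔ v + v = 0 := Iff.rfl

/-- if doubling maps `H` into `K` then `#H ≤ #H[2] * #K` -/
theorem card_le_card_twoTors_mul [Finite V] (H K : AddSubgroup V) (h : ∀ v ∈ H, v + v ∈ K) :
    Nat.card H ≤ Nat.card ↥(H ⊓ twoTors V) * Nat.card K := by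
  let dbl : H →+ K :=
    { toFun := fun v => ⟨(v : V) + v, h v v.2⟩
      map_zero' := Subtype.ext (add_zero 0)
      map_add' := fun a b => Subtype.ext (by
        show ((a : V) + b) + (a + b) = (a + a) + (b + b)
        abel) }
  have h1 : Nat.card dbl.ker * Nat.card dbl.range = Nat.card H := by
    rw [← AddSubgroup.index_ker, AddSubgroup.card_mul_index]
  have h2 : Nat.card dbl.ker ≤ Nat.card ↥(H ⊓ twoTors V) := by
    refine Nat.card_le_card_of_injective
      (fun x : dbl.ker => (⟨((x : H) : V), ⟨(x : H).2, ?_⟩⟩ : ↥(H ⊓ twoTors V))) ?_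
    · have := x.2
      rw [AddMonoidHom.mem_ker] at this
      exact congrArg Subtype.val this
    · intro x y hxy
      have h : ((x : H) : V) = ((y : H) : V) :=
        congrArg (fun z : ↥(H ⊓ twoTors V) => (z : V)) hxy
      exact Subtype.ext (Subtype.ext h)
  have h3 : Nat.card dbl.range ≤ Nat.card K :=
    Nat.card_le_card_of_injective (fun x : dbl.range => (x : K)) Subtype.val_injective
  calc Nat.card H = Nat.card dbl.ker * Nat.card dbl.range := h1.symm
    _ ≤ Nat.card ↥(H ⊓ twoTors V) * Nat.card K := Nat.mul_le_mul h2 h3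

theorem card_sup_le [Finite V] (H K : AddSubgroup V) :
    Nat.card ↥(H ⊔ K) ≤ Nat.card H * Nat.card K := by
  rw [← Nat.card_prod]
  refine Nat.card_le_card_of_surjective
    (fun x : H × K => (⟨(x.1 : V) + x.2, AddSubgroup.add_mem _
      (AddSubgroup.mem_sup_left x.1.2) (AddSubgroup.mem_sup_right x.2.2)⟩ : ↥(H ⊔ K))) ?_
  rintro ⟨v, hv⟩
  obtain ⟨a, ha, b, hb, rfl⟩ := AddSubgroup.mem_sup.1 hv
  exact ⟨(⟨a, ha⟩, ⟨b, hb⟩), rfl⟩

/-- **the counting core**: `E ⊇ Wm`, `#Wp = #Wm`, `2E ⊆ Wp + Wm`, `2Wm ⊆ F` ⟹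
`#E ≤ #E[2]^3 * #F^2`. -/
theorem card_le_of_double [Finite V] (E Wp Wm F : AddSubgroup V) (hWmE : Wm ≤ E)
    (hcard : Nat.card Wp = Nat.card Wm) (hb : ∀ v ∈ E, v + v ∈ Wp ⊔ Wm)
    (hc : ∀ w ∈ Wm, w + w ∈ F) :
    Nat.card E ≤ Nat.card ↥(E ⊓ twoTors V) ^ 3 * Nat.card F ^ 2 := by
  set t := Nat.card ↥(E ⊓ twoTors V) with ht
  have h1 : Nat.card E ≤ t * Nat.card ↥(Wp ⊔ Wm) := card_le_card_twoTors_mul E _ hb
  have h2 : Nat.card ↥(Wp ⊔ Wm) ≤ Nat.card Wm * Nat.card Wm := by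
    have := card_sup_le Wp Wm
    rwa [hcard] at this
  have h3 : Nat.card Wm ≤ Nat.card ↥(Wm ⊓ twoTors V) * Nat.card F :=
    card_le_card_twoTors_mul Wm F hc
  have h4 : Nat.card ↥(Wm ⊓ twoTors V) ≤ t := by
    refine Nat.card_le_card_of_injective
      (fun x : ↥(Wm ⊓ twoTors V) => (⟨(x : V), ⟨hWmE x.2.1, x.2.2⟩⟩ : ↥(E ⊓ twoTors V))) ?_
    intro x y hxy
    have h : (x : V) = (y : V) := congrArg (fun z : ↥(E ⊓ twoTors V) => (z : V)) hxy
    exact Subtype.ext h
  have h5 : Nat.card Wm ≤ t * Nat.card F := le_trans h3 (Nat.mul_le_mul_right _ h4)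
  calc Nat.card E ≤ t * Nat.card ↥(Wp ⊔ Wm) := h1
    _ ≤ t * (Nat.card Wm * Nat.card Wm) := Nat.mul_le_mul_left _ h2
    _ ≤ t * ((t * Nat.card F) * (t * Nat.card F)) :=
        Nat.mul_le_mul_left _ (Nat.mul_le_mul h5 h5)
    _ = t ^ 3 * Nat.card F ^ 2 := by ring

end Count

/-! ### The trace of an involution, without `1/2` -/

section Trace

variable {R : Type*} [CommRing R] [IsDomain R] [IsPrincipalIdealRing R] [CharZero R]
  {M : Type*} [AddCommGroup M] [Module R M] [Module.Finite R M] [Module.Free R M]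
  {ι : M →ₗ[R] M} (hι : ∀ x, ι (ι x) = x)

include hι in
theorem two_mul_finrank_plusPart :
    (2 : R) * (finrank R (plusPart ι) : R) = (finrank R M : R) + LinearMap.trace R M ι := by
  set f : M →ₗ[R] M := LinearMap.id + ι with hf
  have hmem : ∀ x, f x ∈ plusPart ι := fun x => by
    rw [mem_plusPart, hf, LinearMap.add_apply, LinearMap.id_apply, map_add, hι, add_comm]
  have hmem' : ∀ x ∈ plusPart ι, f x ∈ plusPart ι := fun x _ => hmem x
  have h1 := LinearMap.trace_restrict_eq_of_forall_mem (plusPart ι) f hmem hmem'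
  have h2 : f.restrict hmem' = (2 : R) • (LinearMap.id : plusPart ι →ₗ[R] plusPart ι) := by
    ext x
    rw [LinearMap.coe_restrict_apply, hf, LinearMap.add_apply, LinearMap.id_apply,
      mem_plusPart.1 x.2, LinearMap.smul_apply, LinearMap.id_apply, Submodule.coe_smul,
      two_smul]
  rw [h2, map_smul, LinearMap.trace_id, smul_eq_mul, hf, map_add, LinearMap.trace_id] at h1
  exact h1

include hι in
theorem two_mul_finrank_minusPart :
    (2 : R) * (finrank R (minusPart ι) : R) = (finrank R M : R) - LinearMap.trace R M ι := by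
  set f : M →ₗ[R] M := LinearMap.id - ι with hf
  have hmem : ∀ x, f x ∈ minusPart ι := fun x => by
    rw [mem_minusPart, hf, LinearMap.sub_apply, LinearMap.id_apply, map_sub, hι, neg_sub]
  have hmem' : ∀ x ∈ minusPart ι, f x ∈ minusPart ι := fun x _ => hmem x
  have h1 := LinearMap.trace_restrict_eq_of_forall_mem (minusPart ι) f hmem hmem'
  have h2 : f.restrict hmem' = (2 : R) • (LinearMap.id : minusPart ι →ₗ[R] minusPart ι) := by
    ext x
    rw [LinearMap.coe_restrict_apply, hf, LinearMap.sub_apply, LinearMap.id_apply,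
      mem_minusPart.1 x.2, sub_neg_eq_add, LinearMap.smul_apply, LinearMap.id_apply,
      Submodule.coe_smul, two_smul]
  rw [h2, map_smul, LinearMap.trace_id, smul_eq_mul, hf, map_sub, LinearMap.trace_id] at h1
  exact h1

include hι in
/-- an involution of trace zero has eigenspaces of equal rank (no `1/2` needed) -/
theorem finrank_plus_eq_finrank_minus' (htr : LinearMap.trace R M ι = 0) :
    finrank R (plusPart ι) = finrank R (minusPart ι) := by
  have h1 := two_mul_finrank_plusPart hι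
  have h2 := two_mul_finrank_minusPart hι
  rw [htr, add_zero] at h1
  rw [htr, sub_zero] at h2
  have h3 : (2 : R) * (finrank R (plusPart ι) : R) = 2 * (finrank R (minusPart ι) : R) := by
    rw [h1, h2]
  have h4 : ((finrank R (plusPart ι) : ℕ) : R) = ((finrank R (minusPart ι) : ℕ) : R) :=
    mul_left_cancel₀ two_ne_zero h3
  exact_mod_cast h4

end Trace

/-! ### The half-rank principle without `1/2`, and the all-`k` count -/

section Main

variable {𝒪 : Type} [CommRing 𝒪] [IsLocalRing 𝒪] [IsNoetherianRing 𝒪]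
  [IsAdicComplete (IsLocalRing.maximalIdeal 𝒪) 𝒪] [IsDomain 𝒪] [IsPrincipalIdealRing 𝒪]
  [CharZero 𝒪]
variable {A : Type} [CommRing A] [Algebra 𝒪 A]
variable {L : Type*} [AddCommGroup L] [Module 𝒪 L] [Module A L] [IsScalarTower 𝒪 A L]
  [Module.Finite 𝒪 L] [Module.Free 𝒪 L]

variable {ι : L →ₗ[A] L} (hι : ∀ x, ι (ι x) = x)
  (htr : ∀ a : A, LinearMap.trace 𝒪 L (smulComp 𝒪 a ι) = 0)
  (𝔪 : Ideal A) [h𝔪 : 𝔪.IsMaximal]

include hι htr in
/-- **Half-rank principle, `2` not assumed invertible.** -/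
theorem finrank_locPlus_eq_finrank_locMinus' :
    finrank 𝒪 ((locPlus 𝔪 ι).restrictScalars 𝒪) =
      finrank 𝒪 ((locMinus 𝔪 ι).restrictScalars 𝒪) := by
  obtain ⟨s₀, -, hidem, hloc, -⟩ := parts_eq 𝒪 (L := L) 𝔪
  set P : Submodule 𝒪 L := (locPart 𝔪 L).restrictScalars 𝒪 with hP
  have hs₀mem : ∀ x : L, s₀ • x ∈ locPart 𝔪 L := fun x => by
    rw [hloc]; exact ⟨x, rfl⟩
  have hs₀fix : ∀ x ∈ locPart 𝔪 L, s₀ • x = x := by
    intro x hx
    rw [hloc] at hx
    obtain ⟨y, rfl⟩ := hx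
    exact hidem y
  have hιP : ∀ x ∈ P, (ι.restrictScalars 𝒪) x ∈ P := fun x hx =>
    apply_mem_locPart ι hx
  have hf : ∀ x, smulComp 𝒪 s₀ ι x ∈ P := fun x => hs₀mem _
  have hf' : ∀ x ∈ P, smulComp 𝒪 s₀ ι x ∈ P := fun x _ => hf x
  have h1 : LinearMap.trace 𝒪 P ((smulComp 𝒪 s₀ ι).restrict hf') = 0 := by
    rw [LinearMap.trace_restrict_eq_of_forall_mem P _ hf hf', htr]
  have h2 : (smulComp 𝒪 s₀ ι).restrict hf' = (ι.restrictScalars 𝒪).restrict hιP := by
    ext x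
    rw [LinearMap.coe_restrict_apply, LinearMap.coe_restrict_apply, smulComp_apply]
    exact hs₀fix _ (apply_mem_locPart ι x.2)
  rw [h2] at h1
  set ιP : P →ₗ[𝒪] P := (ι.restrictScalars 𝒪).restrict hιP with hιPdef
  have hιPinv : ∀ x, ιP (ιP x) = x := fun x => Subtype.ext (hι x)
  have h3 := finrank_plus_eq_finrank_minus' hιPinv h1
  have eP : plusPart ιP ≃ₗ[𝒪] (locPlus 𝔪 ι).restrictScalars 𝒪 :=
    { toFun := fun x => ⟨(x : P), ⟨(x : P).2, mem_plusPart.2 (by
          have := mem_plusPart.1 x.2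
          exact congrArg Subtype.val this)⟩⟩
      map_add' := fun _ _ => rfl
      map_smul' := fun _ _ => rfl
      invFun := fun y => ⟨⟨(y : L), y.2.1⟩, mem_plusPart.2 (Subtype.ext (mem_plusPart.1 y.2.2))⟩
      left_inv := fun _ => rfl
      right_inv := fun _ => rfl }
  have eM : minusPart ιP ≃ₗ[𝒪] (locMinus 𝔪 ι).restrictScalars 𝒪 :=
    { toFun := fun x => ⟨(x : P), ⟨(x : P).2, mem_minusPart.2 (by
          have := mem_minusPart.1 x.2
          exact congrArg Subtype.val this)⟩⟩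
      map_add' := fun _ _ => rfl
      map_smul' := fun _ _ => rfl
      invFun := fun y => ⟨⟨(y : L), y.2.1⟩,
        mem_minusPart.2 (Subtype.ext (mem_minusPart.1 y.2.2))⟩
      left_inv := fun _ => rfl
      right_inv := fun _ => rfl }
  rw [← eP.finrank_eq, ← eM.finrank_eq, h3]

omit [IsLocalRing 𝒪] [IsNoetherianRing 𝒪] [IsAdicComplete (IsLocalRing.maximalIdeal 𝒪) 𝒪]
  [IsDomain 𝒪] [IsPrincipalIdealRing 𝒪] [CharZero 𝒪] [Module.Finite 𝒪 L] [Module.Free 𝒪 L] in
/-- the image in `V = L / c L` of a `c`-saturated submodule `Q` is `Q / c Q` -/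
theorem nonempty_addEquiv_quot_sat {V : Type*} [AddCommGroup V] (c : 𝒪) (π : L →+ V)
    (hker : ∀ x, π x = 0 ↔ ∃ y, x = c • y) (Q : Submodule 𝒪 L)
    (hsat : ∀ y : L, c • y ∈ Q → y ∈ Q) :
    Nonempty ((Q ⧸ (LinearMap.range (c • (LinearMap.id : Q →ₗ[𝒪] Q))).toAddSubgroup)
        ≃+ ↥(AddSubgroup.map π Q.toAddSubgroup)) := by
  let g : Q →+ ↥(AddSubgroup.map π Q.toAddSubgroup) :=
    { toFun := fun x => ⟨π (x : L), ⟨x, x.2, rfl⟩⟩
      map_zero' := Subtype.ext (map_zero π)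
      map_add' := fun x y => Subtype.ext (map_add π _ _) }
  have hg : Function.Surjective g := by
    rintro ⟨v, x, hx, rfl⟩
    exact ⟨⟨x, hx⟩, rfl⟩
  have hkerg : g.ker = (LinearMap.range (c • (LinearMap.id : Q →ₗ[𝒪] Q))).toAddSubgroup := by
    ext x
    rw [AddMonoidHom.mem_ker, Submodule.mem_toAddSubgroup, LinearMap.mem_range]
    constructor
    · intro hx
      have hx' : π (x : L) = 0 := congrArg Subtype.val hx
      obtain ⟨y, hy⟩ := (hker _).1 hx'
      have hyQ : y ∈ Q := hsat y (hy ▸ x.2)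
      exact ⟨⟨y, hyQ⟩, Subtype.ext hy.symm⟩
    · rintro ⟨y, rfl⟩
      apply Subtype.ext
      show π (c • (y : L)) = 0
      exact (hker _).2 ⟨_, rfl⟩
  exact ⟨(QuotientAddGroup.quotientAddEquivOfEq hkerg).symm.trans
    (QuotientAddGroup.quotientKerEquivOfSurjective g hg)⟩

include hι htr in
/-- **NUM** abstract**: for `V = L / ϖ^k L` with the induced involution `ιV`, the `𝔪`-primary part
`E = locPart 𝔪 V` satisfies `#E ≤ #E[2]^3 * #((1 - ιV) E)^2`. -/
theorem card_locPart_le {V : Type*} [AddCommGroup V] [Module A V] [Finite V] (ϖ : 𝒪)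
    (hϖ : ϖ ≠ 0) (k : ℕ) (π : L →ₗ[A] V) (hπ : Function.Surjective π)
    (hker : ∀ x, π x = 0 ↔ ∃ y, x = ϖ ^ k • y)
    (ιV : V →ₗ[A] V) (hπι : ∀ x, π (ι x) = ιV (π x)) :
    Nat.card (locPart 𝔪 V) ≤
      Nat.card ↥((locPart 𝔪 V).toAddSubgroup ⊓ twoTors V) ^ 3 *
        Nat.card ↥(((locPart 𝔪 V).map (LinearMap.id - ιV)).toAddSubgroup) ^ 2 := by
  obtain ⟨s₀, hs₀, hidem, hloc, -⟩ := parts_eq 𝒪 (L := L) 𝔪
  have hs₀mem : ∀ x : L, s₀ • x ∈ locPart 𝔪 L := fun x => by
    rw [hloc]; exact ⟨x, rfl⟩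
  have hs₀fix : ∀ x ∈ locPart 𝔪 L, s₀ • x = x := by
    intro x hx
    rw [hloc] at hx
    obtain ⟨y, rfl⟩ := hx
    exact hidem y
  have hs₀fixV : ∀ v ∈ locPart 𝔪 V, s₀ • v = v := by
    intro v hv
    obtain ⟨w, rfl⟩ := mem_locPart.1 hv s₀ hs₀
    obtain ⟨y, rfl⟩ := hπ w
    rw [← map_smul, ← map_smul, hidem]
  have hc0 : ϖ ^ k ≠ 0 := pow_ne_zero k hϖ
  -- torsion-freeness
  have htf : ∀ y : L, ϖ ^ k • y = 0 → y = 0 := fun y hy =>
    (smul_eq_zero.1 hy).resolve_left hc0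
  -- saturation of the two eigen-lattices
  have hsatP : ∀ y : L, ϖ ^ k • y ∈ (locPlus 𝔪 ι).restrictScalars 𝒪 →
      y ∈ (locPlus 𝔪 ι).restrictScalars 𝒪 := by
    intro y hy
    have h1 : s₀ • (ϖ ^ k • y) = ϖ ^ k • y := hs₀fix _ hy.1
    have h2 : ι (ϖ ^ k • y) = ϖ ^ k • y := mem_plusPart.1 hy.2
    refine ⟨?_, mem_plusPart.2 ?_⟩
    · have : s₀ • y = y := by
        apply sub_eq_zero.1
        apply htf
        rw [smul_sub, smul_comm, h1, sub_self]
      rw [← this]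
      exact hs₀mem y
    · apply sub_eq_zero.1
      apply htf
      have h3 : ι (ϖ ^ k • y) = ϖ ^ k • ι y := by
        rw [← algebraMap_smul A (ϖ ^ k) y, map_smul, algebraMap_smul]
      rw [smul_sub, ← h3, h2, sub_self]
  have hsatM : ∀ y : L, ϖ ^ k • y ∈ (locMinus 𝔪 ι).restrictScalars 𝒪 →
      y ∈ (locMinus 𝔪 ι).restrictScalars 𝒪 := by
    intro y hy
    have h1 : s₀ • (ϖ ^ k • y) = ϖ ^ k • y := hs₀fix _ hy.1
    have h2 : ι (ϖ ^ k • y) = -(ϖ ^ k • y) := mem_minusPart.1 hy.2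
    refine ⟨?_, mem_minusPart.2 ?_⟩
    · have : s₀ • y = y := by
        apply sub_eq_zero.1
        apply htf
        rw [smul_sub, smul_comm, h1, sub_self]
      rw [← this]
      exact hs₀mem y
    · apply sub_eq_zero.1
      apply htf
      have h3 : ι (ϖ ^ k • y) = ϖ ^ k • ι y := by
        rw [← algebraMap_smul A (ϖ ^ k) y, map_smul, algebraMap_smul]
      rw [smul_sub, ← h3, h2, smul_neg, sub_self]
  obtain ⟨eP⟩ := nonempty_addEquiv_quot_sat (ϖ ^ k) (π : L →+ V) hker _ hsatP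
  obtain ⟨eM⟩ := nonempty_addEquiv_quot_sat (ϖ ^ k) (π : L →+ V) hker _ hsatM
  -- the two lattices are isomorphic
  have hrank := finrank_locPlus_eq_finrank_locMinus' hι htr 𝔪
  let φ : (locPlus 𝔪 ι).restrictScalars 𝒪 ≃ₗ[𝒪] (locMinus 𝔪 ι).restrictScalars 𝒪 :=
    LinearEquiv.ofFinrankEq _ _ hrank
  have hφ : AddSubgroup.map (φ.toAddEquiv : _ →+ _)
      (LinearMap.range ((ϖ ^ k) •
        (LinearMap.id : (locPlus 𝔪 ι).restrictScalars 𝒪 →ₗ[𝒪] _))).toAddSubgroup
      = (LinearMap.range ((ϖ ^ k) •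
        (LinearMap.id : (locMinus 𝔪 ι).restrictScalars 𝒪 →ₗ[𝒪] _))).toAddSubgroup := by
    ext y
    rw [AddSubgroup.mem_map, Submodule.mem_toAddSubgroup, LinearMap.mem_range]
    constructor
    · rintro ⟨x, hx, rfl⟩
      rw [Submodule.mem_toAddSubgroup, LinearMap.mem_range] at hx
      obtain ⟨z, rfl⟩ := hx
      refine ⟨φ z, ?_⟩
      show ϖ ^ k • φ z = φ (ϖ ^ k • z)
      rw [map_smul]
    · rintro ⟨z, rfl⟩
      refine ⟨ϖ ^ k • φ.symm z, ?_, ?_⟩
      · rw [Submodule.mem_toAddSubgroup, LinearMap.mem_range]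
        exact ⟨φ.symm z, rfl⟩
      · show φ (ϖ ^ k • φ.symm z) = ϖ ^ k • z
        rw [map_smul, LinearEquiv.apply_symm_apply]
  set Wp : AddSubgroup V :=
    AddSubgroup.map (π : L →+ V) ((locPlus 𝔪 ι).restrictScalars 𝒪).toAddSubgroup with hWp
  set Wm : AddSubgroup V :=
    AddSubgroup.map (π : L →+ V) ((locMinus 𝔪 ι).restrictScalars 𝒪).toAddSubgroup with hWm
  have hcard : Nat.card Wp = Nat.card Wm :=
    Nat.card_congr (eP.symm.trans ((QuotientAddGroup.congr _ _ φ.toAddEquiv hφ).trans eM)).toEquiv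
  -- the four inputs of the counting core
  have hWmE : Wm ≤ (locPart 𝔪 V).toAddSubgroup := by
    rintro _ ⟨x, hx, rfl⟩
    exact apply_mem_locPart π hx.1
  have hb : ∀ v ∈ (locPart 𝔪 V).toAddSubgroup, v + v ∈ Wp ⊔ Wm := by
    intro v hv
    obtain ⟨x, rfl⟩ := hπ v
    have hv' : s₀ • π x = π x := hs₀fixV _ hv
    set y : L := s₀ • x with hy
    have hyP : y ∈ locPart 𝔪 L := hs₀mem x
    have hπy : π y = π x := by rw [hy, map_smul, hv']
    have hιy : ι y ∈ locPart 𝔪 L := apply_mem_locPart ι hyP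
    have h1 : y + ι y ∈ (locPlus 𝔪 ι).restrictScalars 𝒪 :=
      ⟨Submodule.add_mem _ hyP hιy, mem_plusPart.2 (by rw [map_add, hι, add_comm])⟩
    have h2 : y - ι y ∈ (locMinus 𝔪 ι).restrictScalars 𝒪 :=
      ⟨Submodule.sub_mem _ hyP hιy, mem_minusPart.2 (by rw [map_sub, hι, neg_sub])⟩
    have h3 : π x + π x = π (y + ι y) + π (y - ι y) := by
      rw [← hπy, ← map_add, ← map_add]
      congr 1
      abel
    rw [h3]
    exact AddSubgroup.add_mem _ (AddSubgroup.mem_sup_left ⟨_, h1, rfl⟩)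
      (AddSubgroup.mem_sup_right ⟨_, h2, rfl⟩)
  have hc : ∀ w ∈ Wm, w + w ∈ ((locPart 𝔪 V).map (LinearMap.id - ιV)).toAddSubgroup := by
    rintro _ ⟨y, hy, rfl⟩
    refine ⟨π y, apply_mem_locPart π hy.1, ?_⟩
    show ((LinearMap.id : V →ₗ[A] V) - ιV) (π y) = π y + π y
    rw [LinearMap.sub_apply, LinearMap.id_apply, ← hπι, mem_minusPart.1 hy.2, map_neg,
      sub_neg_eq_add]
  exact card_le_of_double (locPart 𝔪 V).toAddSubgroup Wp Wm _ hWmE hcard hb hc

include hι htr in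
/-- the same with `1 + ιV` (apply `card_locPart_le` to `-ι`) -/
theorem card_locPart_le' {V : Type*} [AddCommGroup V] [Module A V] [Finite V] (ϖ : 𝒪)
    (hϖ : ϖ ≠ 0) (k : ℕ) (π : L →ₗ[A] V) (hπ : Function.Surjective π)
    (hker : ∀ x, π x = 0 ↔ ∃ y, x = ϖ ^ k • y)
    (ιV : V →ₗ[A] V) (hπι : ∀ x, π (ι x) = ιV (π x)) :
    Nat.card (locPart 𝔪 V) ≤
      Nat.card ↥((locPart 𝔪 V).toAddSubgroup ⊓ twoTors V) ^ 3 *
        Nat.card ↥(((locPart 𝔪 V).map (LinearMap.id + ιV)).toAddSubgroup) ^ 2 := by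
  have hι' : ∀ x, (-ι) ((-ι) x) = x := fun x => by
    rw [LinearMap.neg_apply, LinearMap.neg_apply, map_neg, neg_neg, hι]
  have htr' : ∀ a : A, LinearMap.trace 𝒪 L (smulComp 𝒪 a (-ι)) = 0 := fun a => by
    have : smulComp 𝒪 a (-ι) = -smulComp 𝒪 a ι := by
      ext x
      rw [smulComp_apply, LinearMap.neg_apply, LinearMap.neg_apply, smulComp_apply, smul_neg]
    rw [this, map_neg, htr, neg_zero]
  have hπι' : ∀ x, π ((-ι) x) = (-ιV) (π x) := fun x => by
    rw [LinearMap.neg_apply, LinearMap.neg_apply, map_neg, hπι]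
  have h := card_locPart_le hι' htr' 𝔪 ϖ hϖ k π hπ hker (-ιV) hπι'
  rwa [sub_neg_eq_add] at h

end Main

end Fermat.Agent.GZ.Num.AllK
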