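/-
GATE-Z (S15) / node (NUM*) = GZ-NUM, file 2 (helper46): **the `𝔪`-primary part of a finite module
is a generalised common kernel** (Mathlib + the definitions of helper74's `GB/B3/Loc.lean`).

`A` a commutative ring, `V` an `A`-module which is FINITE as a set, `𝔪` a maximal ideal of `A`,
`G ⊆ A`:

* `genKer G : Submodule A V := {v | ∀ g ∈ G, ∃ n, g ^ n • v = 0}`;
* `locPart_le_genKer`  : `G ⊆ 𝔪 ⟹ locPart 𝔪 V ≤ genKer G`;
* `genKer_le_locPart`  : `𝔪 ≤ span G ⊔ annihilator A V ⟹ genKer G ≤ locPart 𝔪 V`;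
* `MvPolynomial` instance: `𝔪 = ker (f ∘ constantCoeff)`, `G = range X`
  (`augIdeal`, `augIdeal_isMaximal`, `augIdeal_le`).
-/
import Mathlib
import Fermat.Agent.GB.B3.Loc

set_option autoImplicit false

namespace Fermat.Agent.GZ.Num.GenEig

open Fermat.Agent.GB.B3.Loc

/-! ### Idempotent powers in a finite monoid -/

/-- in a finite monoid some positive power of every element is idempotent -/
theorem exists_pow_idem {M : Type*} [Monoid M] [Finite M] (x : M) :
    ∃ n : ℕ, 0 < n ∧ x ^ n * x ^ n = x ^ n := by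
  obtain ⟨i, j, hij, hx⟩ : ∃ i j : ℕ, i < j ∧ x ^ i = x ^ j := by
    obtain ⟨i, j, hne, h⟩ := Finite.exists_ne_map_eq_of_infinite (fun n : ℕ => x ^ n)
    rcases lt_or_gt_of_ne hne with h1 | h1
    · exact ⟨i, j, h1, h⟩
    · exact ⟨j, i, h1, h.symm⟩
  obtain ⟨d, rfl⟩ := Nat.exists_eq_add_of_lt hij
  -- `x ^ (m + (d + 1)) = x ^ m` for `m ≥ i`
  have h1 : ∀ m, i ≤ m → x ^ (m + (d + 1)) = x ^ m := by
    intro m hm
    obtain ⟨c, rfl⟩ := Nat.exists_eq_add_of_le hm
    have : i + c + (d + 1) = c + (i + d + 1) := by ring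
    rw [this, pow_add, ← hx, ← pow_add, add_comm]
  have h2 : ∀ k m, i ≤ m → x ^ (m + k * (d + 1)) = x ^ m := by
    intro k
    induction k with
    | zero => intro m _; rw [zero_mul, add_zero]
    | succ k ih =>
      intro m hm
      have : m + (k + 1) * (d + 1) = (m + k * (d + 1)) + (d + 1) := by ring
      rw [this, h1 _ (le_trans hm (Nat.le_add_right _ _)), ih m hm]
  refine ⟨(i + 1) * (d + 1), Nat.mul_pos (Nat.succ_pos _) (Nat.succ_pos _), ?_⟩
  rw [← pow_add]
  refine h2 (i + 1) _ ?_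
  calc i ≤ (i + 1) * 1 := by omega
    _ ≤ (i + 1) * (d + 1) := Nat.mul_le_mul_left _ (by omega)

variable {A : Type*} [CommRing A] {V : Type*} [AddCommGroup V] [Module A V]

/-- some positive power of `a` acts as an idempotent on the finite module `V` -/
theorem exists_pow_smul_idem [Finite V] (a : A) :
    ∃ n : ℕ, 0 < n ∧ ∀ v : V, a ^ n • a ^ n • v = a ^ n • v := by
  have : Finite (Module.End A V) :=
    Finite.of_injective (fun f : Module.End A V => (f : V → V)) DFunLike.coe_injective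
  obtain ⟨n, hn, h⟩ := exists_pow_idem (Algebra.lsmul A A V a)
  refine ⟨n, hn, fun v => ?_⟩
  have h' := LinearMap.congr_fun h v
  rw [← map_pow] at h'
  exact h'

/-! ### The generalised common kernel -/

/-- the generalised common kernel of a set of scalars -/
def genKer (G : Set A) : Submodule A V where
  carrier := {v | ∀ g ∈ G, ∃ n : ℕ, g ^ n • v = 0}
  zero_mem' := fun _ _ => ⟨0, smul_zero _⟩
  add_mem' := by
    intro x y hx hy g hg
    obtain ⟨n, hn⟩ := hx g hg
    obtain ⟨m, hm⟩ := hy g hg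
    refine ⟨n + m, ?_⟩
    have h1 : g ^ (n + m) • x = 0 := by rw [add_comm, pow_add, mul_smul, hn, smul_zero]
    have h2 : g ^ (n + m) • y = 0 := by rw [pow_add, mul_smul, hm, smul_zero]
    rw [smul_add, h1, h2, add_zero]
  smul_mem' := by
    intro a x hx g hg
    obtain ⟨n, hn⟩ := hx g hg
    exact ⟨n, by rw [smul_comm, hn, smul_zero]⟩

theorem mem_genKer {G : Set A} {v : V} : v ∈ genKer G ↔ ∀ g ∈ G, ∃ n : ℕ, g ^ n • v = 0 :=
  Iff.rfl

variable (𝔪 : Ideal A) [h𝔪 : 𝔪.IsMaximal]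

/-- **elements of `𝔪` act nilpotently on the `𝔪`-primary part of a finite module** -/
theorem locPart_le_genKer [Finite V] {G : Set A} (hG : G ⊆ 𝔪) :
    locPart 𝔪 V ≤ genKer G := by
  intro v hv g hg
  obtain ⟨n, hn, hidem⟩ := exists_pow_smul_idem (V := V) g
  refine ⟨n, ?_⟩
  by_contra hw
  set w : V := g ^ n • v with hwdef
  -- the annihilator of `w` is a proper ideal
  let I : Ideal A := LinearMap.ker (LinearMap.toSpanSingleton A V w)
  have hI : ∀ a : A, a ∈ I ↔ a • w = 0 := fun a => by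
    rw [LinearMap.mem_ker, LinearMap.toSpanSingleton_apply]
  have hIne : I ≠ ⊤ := by
    intro htop
    have : (1 : A) ∈ I := by rw [htop]; trivial
    rw [hI, one_smul] at this
    exact hw this
  obtain ⟨𝔫, h𝔫, hI𝔫⟩ := Ideal.exists_le_maximal I hIne
  -- `g ∉ 𝔫`
  have hgw : (g ^ n - 1) ∈ I := by
    rw [hI, sub_smul, one_smul, hwdef, hidem, sub_self]
  have hg𝔫 : g ∉ 𝔫 := by
    intro hmem
    have h1 : g ^ n ∈ 𝔫 := by
      obtain ⟨k, rfl⟩ := Nat.exists_eq_succ_of_ne_zero hn.ne'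
      rw [pow_succ]
      exact 𝔫.mul_mem_left _ hmem
    have h2 : (1 : A) ∈ 𝔫 := by
      have := 𝔫.sub_mem h1 (hI𝔫 hgw)
      rwa [sub_sub_cancel] at this
    exact h𝔫.ne_top ((Ideal.eq_top_iff_one _).2 h2)
  -- so `𝔫 ≠ 𝔪`: pick `s ∈ 𝔫 ∖ 𝔪`
  have hne : ¬ 𝔫 ≤ 𝔪 := by
    intro hle
    have : 𝔫 = 𝔪 := h𝔫.eq_of_le h𝔪.ne_top hle
    exact hg𝔫 (this ▸ hG hg)
  obtain ⟨s, hs𝔫, hs𝔪⟩ := SetLike.not_le_iff_exists.1 hne
  obtain ⟨k, hk, hsidem⟩ := exists_pow_smul_idem (V := V) s
  have hsk𝔪 : s ^ k ∉ 𝔪 := fun h => hs𝔪 (h𝔪.isPrime.mem_of_pow_mem k h)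
  have hsk𝔫 : s ^ k ∈ 𝔫 := by
    obtain ⟨k', rfl⟩ := Nat.exists_eq_succ_of_ne_zero hk.ne'
    rw [pow_succ]
    exact 𝔫.mul_mem_left _ hs𝔫
  obtain ⟨y, hy⟩ := mem_locPart.1 hv (s ^ k) hsk𝔪
  have hfv : s ^ k • v = v := by rw [← hy, hsidem]
  have hfw : s ^ k • w = w := by rw [hwdef, smul_comm, hfv]
  have hmem : (s ^ k - 1) ∈ I := by rw [hI, sub_smul, one_smul, hfw, sub_self]
  have h2 : (1 : A) ∈ 𝔫 := by
    have := 𝔫.sub_mem hsk𝔫 (hI𝔫 hmem)
    rwa [sub_sub_cancel] at this
  exact h𝔫.ne_top ((Ideal.eq_top_iff_one _).2 h2)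

omit h𝔪 in
/-- nilpotent action of an ideal spanned by elements acting nilpotently on a vector -/
theorem exists_pow_smul_eq_zero_of_mem_span {G : Set A} {v : V} (hv : v ∈ genKer G) {m : A}
    (hm : m ∈ Ideal.span G) : ∃ n : ℕ, m ^ n • v = 0 := by
  -- the ideal of elements acting nilpotently on `A v`
  let I : Ideal A := LinearMap.ker (LinearMap.toSpanSingleton A V v)
  have hI : ∀ a : A, a ∈ I ↔ a • v = 0 := fun a => by
    rw [LinearMap.mem_ker, LinearMap.toSpanSingleton_apply]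
  have hrad : Ideal.span G ≤ I.radical := by
    rw [Ideal.span_le]
    intro g hg
    obtain ⟨n, hn⟩ := hv g hg
    exact ⟨n, (hI _).2 hn⟩
  obtain ⟨n, hn⟩ := hrad hm
  exact ⟨n, (hI _).1 hn⟩

/-- **a generalised common eigenvector for generators of `𝔪` (modulo the annihilator) lies in the
`𝔪`-primary part** -/
theorem genKer_le_locPart {G : Set A}
    (hgen : 𝔪 ≤ Ideal.span G ⊔ Module.annihilator A V) :
    genKer G ≤ locPart (L := V) 𝔪 := by
  intro v hv
  rw [mem_locPart]
  intro s hs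
  -- `b s + m = 1` with `m ∈ 𝔪`
  obtain ⟨b, m, hm, hbm⟩ := h𝔪.exists_inv hs
  obtain ⟨m₁, hm₁, z, hz, rfl⟩ := Submodule.mem_sup.1 (hgen hm)
  obtain ⟨n, hn⟩ := exists_pow_smul_eq_zero_of_mem_span hv hm₁
  have hzV : ∀ x : V, z • x = 0 := Module.mem_annihilator.1 hz
  have h1 : ∀ x : V, (1 - b * s) • x = m₁ • x := by
    intro x
    have : 1 - b * s = m₁ + z := by rw [← hbm]; ring
    rw [this, add_smul, hzV, add_zero]
  have h2 : ∀ (k : ℕ) (x : V), (1 - b * s) ^ k • x = m₁ ^ k • x := by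
    intro k
    induction k with
    | zero => intro x; rw [pow_zero, pow_zero]
    | succ k ih => intro x; rw [pow_succ, pow_succ, mul_smul, mul_smul, h1, ih]
  have h3 : (1 - b * s) ^ n • v = 0 := by rw [h2, hn]
  obtain ⟨c, hc⟩ : (1 - (1 - b * s)) ∣ 1 ^ n - (1 - b * s) ^ n := sub_dvd_pow_sub_pow _ _ n
  rw [one_pow, sub_sub_cancel] at hc
  refine ⟨(b * c) • v, ?_⟩
  have h4 : (1 - (1 - b * s) ^ n) • v = v := by rw [sub_smul, one_smul, h3, sub_zero]
  rw [← mul_smul]
  have : s * (b * c) = b * s * c := by ring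
  rw [this, ← hc, h4]

/-! ### The augmentation-type maximal ideal of a polynomial ring -/

section Poly

variable {R : Type*} [CommRing R] {k : Type*} [Field k] (ι : Type*)

/-- the kernel of `P ↦ f (constant coefficient of P)` -/
noncomputable def augIdeal (f : R →+* k) : Ideal (MvPolynomial ι R) :=
  RingHom.ker (f.comp MvPolynomial.constantCoeff)

theorem mem_augIdeal (f : R →+* k) (P : MvPolynomial ι R) :
    P ∈ augIdeal ι f ↔ f (MvPolynomial.constantCoeff P) = 0 := by
  rw [augIdeal, RingHom.mem_ker, RingHom.comp_apply]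

theorem augIdeal_isMaximal (f : R →+* k) (hf : Function.Surjective f) :
    (augIdeal ι f).IsMaximal := by
  refine RingHom.ker_isMaximal_of_surjective _ fun y => ?_
  obtain ⟨x, rfl⟩ := hf y
  exact ⟨MvPolynomial.C x, by rw [RingHom.comp_apply, MvPolynomial.constantCoeff_C]⟩

theorem X_mem_augIdeal (f : R →+* k) (i : ι) :
    (MvPolynomial.X i : MvPolynomial ι R) ∈ augIdeal ι f := by
  rw [mem_augIdeal, MvPolynomial.constantCoeff_X, map_zero]

/-- every polynomial is its constant coefficient modulo the variables -/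
theorem sub_C_constantCoeff_mem (P : MvPolynomial ι R) :
    P - MvPolynomial.C (MvPolynomial.constantCoeff P) ∈
      Ideal.span (Set.range (MvPolynomial.X : ι → MvPolynomial ι R)) := by
  induction P using MvPolynomial.induction_on with
  | C a => rw [MvPolynomial.constantCoeff_C, sub_self]; exact Submodule.zero_mem _
  | add p q hp hq =>
    have : p + q - MvPolynomial.C (MvPolynomial.constantCoeff (p + q))
        = (p - MvPolynomial.C (MvPolynomial.constantCoeff p))
          + (q - MvPolynomial.C (MvPolynomial.constantCoeff q)) := by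
      rw [map_add, map_add]; ring
    rw [this]
    exact Submodule.add_mem _ hp hq
  | mul_X p i _ =>
    rw [map_mul, MvPolynomial.constantCoeff_X, mul_zero, map_zero, sub_zero]
    exact Ideal.mul_mem_left _ _ (Ideal.subset_span ⟨i, rfl⟩)

/-- the augmentation-type ideal is generated by the variables and the constants in `ker f` -/
theorem augIdeal_le (f : R →+* k) :
    augIdeal ι f ≤ Ideal.span (Set.range (MvPolynomial.X : ι → MvPolynomial ι R)) ⊔
      Ideal.map MvPolynomial.C (RingHom.ker f) := by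
  intro P hP
  rw [mem_augIdeal] at hP
  have h1 := sub_C_constantCoeff_mem ι P
  have h2 : MvPolynomial.C (MvPolynomial.constantCoeff P) ∈
      Ideal.map (MvPolynomial.C : R →+* MvPolynomial ι R) (RingHom.ker f) :=
    Ideal.mem_map_of_mem _ hP
  have : P = (P - MvPolynomial.C (MvPolynomial.constantCoeff P))
      + MvPolynomial.C (MvPolynomial.constantCoeff P) := by ring
  rw [this]
  exact Submodule.add_mem_sup h1 h2

end Poly

end Fermat.Agent.GZ.Num.GenEig
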