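/-
GATE-Z (S15) / node (NUM**) = GZ-NUM, file 4 (helper46): **the all-`k` count in RING-FREE form**
(Mathlib + `GZ/Num/{HalfRank,GenEig,AllK}`).

* `polyAct T hT : MvPolynomial ι 𝒪 →ₐ[𝒪] End_𝒪 L` for a commuting family `T : ι → End_𝒪 L`,
  and the module structure `polyModule`;
* `card_genKer_le_of_lattice` (𝒪-level): `L` finite free over a complete DVR `𝒪` of characteristic
  `0` with uniformiser `ϖ`, `T i` commuting, `Jb` an involution commuting with them, with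
  `tr (f ∘ Jb) = 0` for all `f` in the `𝒪`-algebra generated by the `T i`; `V` a finite abelian
  group, `π₀ : L →+ V` onto with kernel `ϖ^k L`, intertwining `T i`, `Jb` with `DV i`, `cV`
  ⟹ `#E ≤ #E[2]^3 * #((1 + cV) E)^2` for `E := {v | ∀ i, ∃ n, (DV i)^n v = 0}`.
-/
import Mathlib
import Fermat.Agent.GZ.Num.AllK
import Fermat.Agent.GZ.Num.GenEig

set_option autoImplicit false
set_option linter.unusedSectionVars false

namespace Fermat.Agent.GZ.Num.LatAllK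

open Module Fermat.Agent.GB.B3.Loc Fermat.Agent.GZ.Num.HalfRank Fermat.Agent.GZ.Num.AllK
  Fermat.Agent.GZ.Num.GenEig

/-! ### Polynomials acting through a commuting family -/

section PolyAct

variable {𝒪 : Type} [CommRing 𝒪] {L : Type*} [AddCommGroup L] [Module 𝒪 L] {ι : Type}
  (T : ι → Module.End 𝒪 L) (hT : ∀ i j, Commute (T i) (T j))

include hT in
theorem isMulCommutative_adjoin_range :
    IsMulCommutative (Algebra.adjoin 𝒪 (Set.range T)) :=
  Algebra.isMulCommutative_adjoin 𝒪 (by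
    rintro _ ⟨i, rfl⟩ _ ⟨j, rfl⟩
    exact hT i j)

section
open scoped IsMulCommutative

/-- the commutative ring structure on the algebra generated by a commuting family -/
@[reducible] noncomputable def adjoinCommRing : CommRing (Algebra.adjoin 𝒪 (Set.range T)) :=
  have := isMulCommutative_adjoin_range T hT
  inferInstance

end

/-- evaluation of polynomials at a commuting family of endomorphisms -/
noncomputable def polyAct : MvPolynomial ι 𝒪 →ₐ[𝒪] Module.End 𝒪 L :=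
  letI := adjoinCommRing T hT
  (Algebra.adjoin 𝒪 (Set.range T)).val.comp
    (MvPolynomial.aeval (fun i =>
      (⟨T i, Algebra.subset_adjoin ⟨i, rfl⟩⟩ : Algebra.adjoin 𝒪 (Set.range T))))

theorem polyAct_X (i : ι) : polyAct T hT (MvPolynomial.X i) = T i := by
  letI := adjoinCommRing T hT
  show (Algebra.adjoin 𝒪 (Set.range T)).val (MvPolynomial.aeval (fun i =>
      (⟨T i, Algebra.subset_adjoin ⟨i, rfl⟩⟩ : Algebra.adjoin 𝒪 (Set.range T)))
        (MvPolynomial.X i)) = T i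
  rw [MvPolynomial.aeval_X]
  rfl

theorem polyAct_mem_adjoin (P : MvPolynomial ι 𝒪) :
    polyAct T hT P ∈ Algebra.adjoin 𝒪 (Set.range T) := by
  letI := adjoinCommRing T hT
  show ((Algebra.adjoin 𝒪 (Set.range T)).val (MvPolynomial.aeval (fun i =>
      (⟨T i, Algebra.subset_adjoin ⟨i, rfl⟩⟩ : Algebra.adjoin 𝒪 (Set.range T))) P))
        ∈ Algebra.adjoin 𝒪 (Set.range T)
  exact Subtype.property _

/-- the module structure on `L` over the polynomial ring -/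
@[reducible] noncomputable def polyModule : Module (MvPolynomial ι 𝒪) L :=
  Module.compHom L (polyAct T hT).toRingHom

theorem polyModule_smul (P : MvPolynomial ι 𝒪) (x : L) :
    (letI := polyModule T hT; P • x) = polyAct T hT P x := rfl

theorem polyModule_isScalarTower :
    letI := polyModule T hT
    IsScalarTower 𝒪 (MvPolynomial ι 𝒪) L := by
  letI := polyModule T hT
  refine ⟨fun c P x => ?_⟩
  show polyAct T hT (c • P) x = c • polyAct T hT P x
  rw [map_smul, LinearMap.smul_apply]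

end PolyAct

/-! ### The ring-free generalised kernel -/

section GenKerAdd

variable {ι : Type*} {V : Type*} [AddCommGroup V]

/-- the generalised common kernel of a family of endomorphisms of an abelian group -/
def genKerAdd (D : ι → Module.End ℤ V) : AddSubgroup V where
  carrier := {v | ∀ i, ∃ n : ℕ, (D i ^ n) v = 0}
  zero_mem' := fun _ => ⟨0, map_zero _⟩
  add_mem' := by
    intro x y hx hy i
    obtain ⟨n, hn⟩ := hx i
    obtain ⟨m, hm⟩ := hy i
    refine ⟨n + m, ?_⟩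
    have h1 : (D i ^ (n + m)) x = 0 := by
      rw [add_comm, pow_add, Module.End.mul_apply, hn, map_zero]
    have h2 : (D i ^ (n + m)) y = 0 := by
      rw [pow_add, Module.End.mul_apply, hm, map_zero]
    rw [map_add, h1, h2, add_zero]
  neg_mem' := by
    intro x hx i
    obtain ⟨n, hn⟩ := hx i
    exact ⟨n, by rw [map_neg, hn, neg_zero]⟩

theorem mem_genKerAdd {D : ι → Module.End ℤ V} {v : V} :
    v ∈ genKerAdd D ↔ ∀ i, ∃ n : ℕ, (D i ^ n) v = 0 := Iff.rfl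

end GenKerAdd

/-! ### The `𝒪`-level theorem -/

section OLevel

variable {𝒪 : Type} [CommRing 𝒪] [IsLocalRing 𝒪] [IsNoetherianRing 𝒪]
  [IsAdicComplete (IsLocalRing.maximalIdeal 𝒪) 𝒪] [IsDomain 𝒪] [IsPrincipalIdealRing 𝒪]
  [CharZero 𝒪]
variable {L : Type*} [AddCommGroup L] [Module 𝒪 L] [Module.Finite 𝒪 L] [Module.Free 𝒪 L]
variable {ι : Type}

/-- **NUM** at the `𝒪`-level, ring-free on the finite side.** -/
theorem card_genKer_le_of_lattice
    (T : ι → Module.End 𝒪 L) (hT : ∀ i j, Commute (T i) (T j))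
    (Jb : Module.End 𝒪 L) (hJ : ∀ x, Jb (Jb x) = x) (hJT : ∀ i, Commute Jb (T i))
    (htr : ∀ f ∈ Algebra.adjoin 𝒪 (Set.range T), LinearMap.trace 𝒪 L (f * Jb) = 0)
    (ϖ : 𝒪) (hϖ0 : ϖ ≠ 0) (hϖ : IsLocalRing.maximalIdeal 𝒪 = Ideal.span {ϖ}) (k : ℕ)
    {V : Type*} [AddCommGroup V] [Finite V] (π₀ : L →+ V) (hπ₀ : Function.Surjective π₀)
    (hker : ∀ x, π₀ x = 0 ↔ ∃ y, x = ϖ ^ k • y)
    (DV : ι → Module.End ℤ V) (cV : Module.End ℤ V)
    (hDV : ∀ i x, π₀ (T i x) = DV i (π₀ x)) (hcV : ∀ x, π₀ (Jb x) = cV (π₀ x)) :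
    Nat.card (genKerAdd DV) ≤ Nat.card ↥(genKerAdd DV ⊓ twoTors V) ^ 3 *
      Nat.card ↥((genKerAdd DV).map ((1 + cV : Module.End ℤ V).toAddMonoidHom)) ^ 2 := by
  classical
  letI : Module (MvPolynomial ι 𝒪) L := polyModule T hT
  haveI : IsScalarTower 𝒪 (MvPolynomial ι 𝒪) L := polyModule_isScalarTower T hT
  have hsmul : ∀ (P : MvPolynomial ι 𝒪) (x : L), P • x = polyAct T hT P x := fun _ _ => rfl
  -- `Jb` commutes with the polynomial action
  have hJcomm : ∀ P : MvPolynomial ι 𝒪, Commute Jb (polyAct T hT P) := fun P =>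
    Algebra.commute_of_mem_adjoin_of_forall_mem_commute (polyAct_mem_adjoin T hT P) (by
      rintro _ ⟨i, rfl⟩
      exact hJT i)
  let ιA : L →ₗ[MvPolynomial ι 𝒪] L :=
    { toFun := Jb
      map_add' := map_add Jb
      map_smul' := fun P x => by
        show Jb (polyAct T hT P x) = polyAct T hT P (Jb x)
        exact LinearMap.congr_fun (hJcomm P).eq x }
  have hιA : ∀ x, ιA x = Jb x := fun _ => rfl
  have hι : ∀ x, ιA (ιA x) = x := hJ
  have htrA : ∀ P : MvPolynomial ι 𝒪, LinearMap.trace 𝒪 L (smulComp 𝒪 P ιA) = 0 := by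
    intro P
    have : smulComp 𝒪 P ιA = polyAct T hT P * Jb := by
      ext x
      rfl
    rw [this]
    exact htr _ (polyAct_mem_adjoin T hT P)
  -- the maximal ideal
  set 𝔪 : Ideal (MvPolynomial ι 𝒪) := augIdeal ι (IsLocalRing.residue 𝒪) with h𝔪def
  haveI h𝔪 : 𝔪.IsMaximal := augIdeal_isMaximal ι _ Ideal.Quotient.mk_surjective
  -- the quotient `V' = L / ϖ^k L`
  let W : Submodule (MvPolynomial ι 𝒪) L :=
    LinearMap.range (LinearMap.lsmul (MvPolynomial ι 𝒪) L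
      (algebraMap 𝒪 (MvPolynomial ι 𝒪) (ϖ ^ k)))
  have hW : ∀ x : L, x ∈ W ↔ ∃ y, x = ϖ ^ k • y := by
    intro x
    constructor
    · rintro ⟨y, rfl⟩
      exact ⟨y, algebraMap_smul (MvPolynomial ι 𝒪) (ϖ ^ k) y⟩
    · rintro ⟨y, rfl⟩
      exact ⟨y, algebraMap_smul (MvPolynomial ι 𝒪) (ϖ ^ k) y⟩
  have hπ' : Function.Surjective W.mkQ := Submodule.mkQ_surjective W
  have hker' : ∀ x, W.mkQ x = 0 ↔ ∃ y, x = ϖ ^ k • y := fun x => by
    rw [Submodule.mkQ_apply, Submodule.Quotient.mk_eq_zero, hW]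
  have hWle : W ≤ W.comap ιA := by
    intro x hx
    rw [Submodule.mem_comap, hW]
    obtain ⟨y, rfl⟩ := (hW x).1 hx
    exact ⟨Jb y, by rw [hιA, map_smul]⟩
  let ιV' : (L ⧸ W) →ₗ[MvPolynomial ι 𝒪] (L ⧸ W) := W.mapQ W ιA hWle
  have hπι' : ∀ x, W.mkQ (ιA x) = ιV' (W.mkQ x) := fun _ => rfl
  -- the comparison with `V`
  have hWker : W.toAddSubgroup = π₀.ker := by
    ext x
    rw [Submodule.mem_toAddSubgroup, hW, AddMonoidHom.mem_ker, hker]
  let e : (L ⧸ W) ≃+ V :=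
    (QuotientAddGroup.quotientAddEquivOfEq hWker).trans
      (QuotientAddGroup.quotientKerEquivOfSurjective π₀ hπ₀)
  have he : ∀ x : L, e (W.mkQ x) = π₀ x := fun _ => rfl
  haveI : Finite (L ⧸ W) := Finite.of_equiv V e.symm.toEquiv
  have main := card_locPart_le' hι htrA 𝔪 ϖ hϖ0 k W.mkQ hπ' hker' ιV' hπι'
  -- `locPart = genKer`
  set G' : Set (MvPolynomial ι 𝒪) :=
    Set.range (MvPolynomial.X : ι → MvPolynomial ι 𝒪) ∪ {MvPolynomial.C ϖ} with hG'
  have hϖres : IsLocalRing.residue 𝒪 ϖ = 0 := by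
    rw [IsLocalRing.residue_eq_zero_iff, hϖ]
    exact Ideal.subset_span rfl
  have hG'𝔪 : G' ⊆ 𝔪 := by
    rintro g (⟨i, rfl⟩ | rfl)
    · exact X_mem_augIdeal ι _ i
    · show MvPolynomial.C ϖ ∈ augIdeal ι (IsLocalRing.residue 𝒪)
      rw [mem_augIdeal, MvPolynomial.constantCoeff_C, hϖres]
  have hgen : 𝔪 ≤ Ideal.span G' ⊔ Module.annihilator (MvPolynomial ι 𝒪) (L ⧸ W) := by
    refine le_trans (augIdeal_le ι (IsLocalRing.residue 𝒪)) (le_trans ?_ le_sup_left)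
    refine sup_le (Ideal.span_mono Set.subset_union_left) ?_
    rw [IsLocalRing.ker_residue, hϖ, Ideal.map_span, Set.image_singleton]
    exact Ideal.span_mono Set.subset_union_right
  have hloc : locPart 𝔪 (L ⧸ W) = genKer G' :=
    le_antisymm (locPart_le_genKer 𝔪 hG'𝔪) (genKer_le_locPart 𝔪 hgen)
  -- transport of the operators
  have heX : ∀ (i : ι) (v' : L ⧸ W), e ((MvPolynomial.X i : MvPolynomial ι 𝒪) • v') = DV i (e v') := by
    intro i v'
    obtain ⟨x, rfl⟩ := hπ' v'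
    rw [← map_smul, he, he, hsmul, polyAct_X, hDV]
  have heXn : ∀ (i : ι) (n : ℕ) (v' : L ⧸ W),
      e ((MvPolynomial.X i : MvPolynomial ι 𝒪) ^ n • v') = (DV i ^ n) (e v') := by
    intro i n
    induction n with
    | zero => intro v'; rw [pow_zero, pow_zero, one_smul, Module.End.one_apply]
    | succ n ih =>
      intro v'
      rw [pow_succ, mul_smul, ih, heX, pow_succ, Module.End.mul_apply]
  have heC : ∀ v' : L ⧸ W, (MvPolynomial.C ϖ : MvPolynomial ι 𝒪) ^ k • v' = 0 := by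
    intro v'
    obtain ⟨x, rfl⟩ := hπ' v'
    rw [← map_smul, hker', ← map_pow]
    exact ⟨x, algebraMap_smul (MvPolynomial ι 𝒪) (ϖ ^ k) x⟩
  have hmemE : ∀ v' : L ⧸ W, v' ∈ locPart 𝔪 (L ⧸ W) ↔ e v' ∈ genKerAdd DV := by
    intro v'
    rw [hloc, mem_genKer, mem_genKerAdd]
    constructor
    · intro h i
      obtain ⟨n, hn⟩ := h _ (Or.inl ⟨i, rfl⟩)
      exact ⟨n, by rw [← heXn, hn, map_zero]⟩
    · rintro h g (⟨i, rfl⟩ | hg)
      · obtain ⟨n, hn⟩ := h i
        refine ⟨n, e.injective ?_⟩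
        rw [heXn, hn, map_zero]
      · rw [Set.mem_singleton_iff] at hg
        subst hg
        exact ⟨k, heC v'⟩
  have heι : ∀ v' : L ⧸ W, e (ιV' v') = cV (e v') := by
    intro v'
    obtain ⟨x, rfl⟩ := hπ' v'
    rw [← hπι', he, he, hιA, hcV]
  -- the three subgroups correspond
  have key1 : AddSubgroup.map (e : (L ⧸ W) →+ V) (locPart 𝔪 (L ⧸ W)).toAddSubgroup
      = genKerAdd DV := by
    ext v
    constructor
    · rintro ⟨v', hv', rfl⟩
      exact (hmemE v').1 hv'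
    · intro hv
      refine ⟨e.symm v, (hmemE _).2 ?_, e.apply_symm_apply v⟩
      rw [e.apply_symm_apply]
      exact hv
  have key2 : AddSubgroup.map (e : (L ⧸ W) →+ V)
      ((locPart 𝔪 (L ⧸ W)).toAddSubgroup ⊓ twoTors (L ⧸ W)) = genKerAdd DV ⊓ twoTors V := by
    ext v
    constructor
    · rintro ⟨v', ⟨hv', h2⟩, rfl⟩
      refine ⟨(hmemE v').1 hv', ?_⟩
      show e v' + e v' = 0
      rw [← map_add, mem_twoTors.1 h2, map_zero]
    · rintro ⟨hv, h2⟩
      refine ⟨e.symm v, ⟨(hmemE _).2 ?_, ?_⟩, e.apply_symm_apply v⟩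
      · rw [e.apply_symm_apply]
        exact hv
      · show e.symm v + e.symm v = 0
        rw [← map_add, mem_twoTors.1 h2, map_zero]
  have key3 : AddSubgroup.map (e : (L ⧸ W) →+ V)
      ((locPart 𝔪 (L ⧸ W)).map (LinearMap.id + ιV')).toAddSubgroup
      = (genKerAdd DV).map ((1 + cV : Module.End ℤ V).toAddMonoidHom) := by
    ext v
    constructor
    · rintro ⟨w', ⟨v', hv', rfl⟩, rfl⟩
      refine ⟨e v', (hmemE v').1 hv', ?_⟩
      show (1 + cV) (e v') =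
        e (((LinearMap.id : (L ⧸ W) →ₗ[MvPolynomial ι 𝒪] (L ⧸ W)) + ιV') v')
      rw [LinearMap.add_apply, LinearMap.add_apply, Module.End.one_apply, LinearMap.id_apply,
        map_add, heι]
    · rintro ⟨w, hw, rfl⟩
      refine ⟨((LinearMap.id : (L ⧸ W) →ₗ[MvPolynomial ι 𝒪] (L ⧸ W)) + ιV') (e.symm w),
        ⟨e.symm w, (hmemE _).2 ?_, rfl⟩, ?_⟩
      · rw [e.apply_symm_apply]
        exact hw
      · show e (((LinearMap.id : (L ⧸ W) →ₗ[MvPolynomial ι 𝒪] (L ⧸ W)) + ιV') (e.symm w))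
          = (1 + cV) w
        rw [LinearMap.add_apply, LinearMap.add_apply, Module.End.one_apply, LinearMap.id_apply,
          map_add, heι, e.apply_symm_apply]
  have c1 : Nat.card (locPart 𝔪 (L ⧸ W)) = Nat.card (genKerAdd DV) := by
    rw [← key1]
    exact Nat.card_congr (e.addSubgroupMap (locPart 𝔪 (L ⧸ W)).toAddSubgroup).toEquiv
  have c2 : Nat.card ↥((locPart 𝔪 (L ⧸ W)).toAddSubgroup ⊓ twoTors (L ⧸ W))
      = Nat.card ↥(genKerAdd DV ⊓ twoTors V) := by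
    rw [← key2]
    exact Nat.card_congr (e.addSubgroupMap _).toEquiv
  have c3 : Nat.card ↥(((locPart 𝔪 (L ⧸ W)).map (LinearMap.id + ιV')).toAddSubgroup)
      = Nat.card ↥((genKerAdd DV).map ((1 + cV : Module.End ℤ V).toAddMonoidHom)) := by
    rw [← key3]
    exact Nat.card_congr (e.addSubgroupMap _).toEquiv
  rw [c1, c2, c3] at main
  exact main

end OLevel

/-! ### The lattice-level theorem -/

section Lattice

open TensorProduct

variable {Λ : Type} [AddCommGroup Λ] [Module.Free ℤ Λ] [Module.Finite ℤ Λ] {ι : Type}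

/-- the trace-zero property passes to the base change -/
theorem trace_baseChange_mul_eq_zero (𝒪 : Type) [CommRing 𝒪]
    (t : ι → Module.End ℤ Λ) (a : ι → ℤ) (J : Module.End ℤ Λ)
    (htr : ∀ s ∈ Algebra.adjoin ℤ (Set.range t), LinearMap.trace ℤ Λ (s * J) = 0)
    (f : Module.End 𝒪 (𝒪 ⊗[ℤ] Λ))
    (hf : f ∈ Algebra.adjoin 𝒪 (Set.range fun i =>
      (t i - a i • (1 : Module.End ℤ Λ)).baseChange 𝒪)) :
    LinearMap.trace 𝒪 (𝒪 ⊗[ℤ] Λ) (f * J.baseChange 𝒪) = 0 := by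
  set B : Subalgebra ℤ (Module.End ℤ Λ) := Algebra.adjoin ℤ (Set.range t) with hB
  let β : Module.End ℤ Λ →ₐ[ℤ] Module.End 𝒪 (𝒪 ⊗[ℤ] Λ) := Module.End.baseChangeHom ℤ 𝒪 Λ
  have hβ : ∀ s, β s = s.baseChange 𝒪 := fun _ => rfl
  let Mo : Submonoid (Module.End 𝒪 (𝒪 ⊗[ℤ] Λ)) :=
    B.toSubsemiring.toSubmonoid.map (β : Module.End ℤ Λ →* Module.End 𝒪 (𝒪 ⊗[ℤ] Λ))
  have hcl : Submonoid.closure (Set.range fun i =>
      (t i - a i • (1 : Module.End ℤ Λ)).baseChange 𝒪) ≤ Mo := by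
    rw [Submonoid.closure_le]
    rintro _ ⟨i, rfl⟩
    refine ⟨t i - a i • 1, ?_, rfl⟩
    exact B.sub_mem (Algebra.subset_adjoin ⟨i, rfl⟩) (B.zsmul_mem B.one_mem _)
  have hf' : f ∈ Submodule.span 𝒪 (Mo : Set (Module.End 𝒪 (𝒪 ⊗[ℤ] Λ))) := by
    have h1 : f ∈ Subalgebra.toSubmodule (Algebra.adjoin 𝒪 (Set.range fun i =>
      (t i - a i • (1 : Module.End ℤ Λ)).baseChange 𝒪)) := hf
    rw [Algebra.adjoin_eq_span] at h1
    exact Submodule.span_mono hcl h1
  have key : ∀ g ∈ Submodule.span 𝒪 (Mo : Set (Module.End 𝒪 (𝒪 ⊗[ℤ] Λ))),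
      LinearMap.trace 𝒪 (𝒪 ⊗[ℤ] Λ) (g * J.baseChange 𝒪) = 0 := by
    intro g hg
    induction hg using Submodule.span_induction with
    | mem g hg =>
      obtain ⟨s, hs, rfl⟩ := hg
      show LinearMap.trace 𝒪 (𝒪 ⊗[ℤ] Λ) (s.baseChange 𝒪 * J.baseChange 𝒪) = 0
      rw [← LinearMap.baseChange_mul, LinearMap.trace_baseChange, htr s hs, map_zero]
    | zero => rw [zero_mul, map_zero]
    | add g h _ _ hg hh => rw [add_mul, map_add, hg, hh, add_zero]
    | smul c g _ hg => rw [smul_mul_assoc, map_smul, hg, smul_zero]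
  exact key f hf'

/-- **NUM** on the lattice side, ring-free.**  `Λ` a finite free `ℤ`-module with a commuting
family `t i`, an involution `J` commuting with them and `tr (s ∘ J) = 0` for all `s` in the ring
generated by the `t i`; `V` a finite abelian group with `θ : Λ →+ V` onto, kernel `r^k Λ`,
intertwining `t i`, `J` with `TV i`, `cV`.  Then for the generalised eigenspace
`E = {v | ∀ i, ∃ n, (TV i - a i)^n v = 0}`:  `#E ≤ #E[2]^3 * #((1 + cV) E)^2`. -/
theorem card_genKer_le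
    (t : ι → Module.End ℤ Λ) (ht : ∀ i j, Commute (t i) (t j))
    (J : Module.End ℤ Λ) (hJ : ∀ x, J (J x) = x) (hJt : ∀ i, Commute J (t i))
    (htr : ∀ s ∈ Algebra.adjoin ℤ (Set.range t), LinearMap.trace ℤ Λ (s * J) = 0)
    (r : ℕ) [Fact r.Prime] (a : ι → ℤ) (k : ℕ)
    {V : Type*} [AddCommGroup V] [Finite V] (θ : Λ →+ V) (hθ : Function.Surjective θ)
    (hker : ∀ Φ, θ Φ = 0 ↔ ∃ Ψ, Φ = (r ^ k : ℕ) • Ψ)
    (TV : ι → Module.End ℤ V) (cV : Module.End ℤ V)
    (hTV : ∀ i Φ, θ (t i Φ) = TV i (θ Φ)) (hcV : ∀ Φ, θ (J Φ) = cV (θ Φ)) :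
    Nat.card (genKerAdd fun i => TV i - a i • (1 : Module.End ℤ V)) ≤
      Nat.card ↥((genKerAdd fun i => TV i - a i • (1 : Module.End ℤ V)) ⊓ twoTors V) ^ 3 *
        Nat.card ↥((genKerAdd fun i => TV i - a i • (1 : Module.End ℤ V)).map
          ((1 + cV : Module.End ℤ V).toAddMonoidHom)) ^ 2 := by
  classical
  -- the lattice over `ℤ_[r]`
  let T : ι → Module.End ℤ_[r] (ℤ_[r] ⊗[ℤ] Λ) := fun i =>
    (t i - a i • (1 : Module.End ℤ Λ)).baseChange ℤ_[r]
  let Jb : Module.End ℤ_[r] (ℤ_[r] ⊗[ℤ] Λ) := J.baseChange ℤ_[r]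
  have hcomm0 : ∀ i j, Commute (t i - a i • (1 : Module.End ℤ Λ))
      (t j - a j • (1 : Module.End ℤ Λ)) := fun i j =>
    Commute.sub_left
      (Commute.sub_right (ht i j) ((Commute.one_right _).smul_right _))
      (Commute.smul_left (Commute.one_left _) _)
  have hT : ∀ i j, Commute (T i) (T j) := fun i j => by
    show LinearMap.baseChange ℤ_[r] _ * LinearMap.baseChange ℤ_[r] _ = _
    rw [← LinearMap.baseChange_mul, (hcomm0 i j).eq, LinearMap.baseChange_mul]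
  have hJJ : J * J = 1 := LinearMap.ext hJ
  have hJb : ∀ x, Jb (Jb x) = x := fun x => by
    have : Jb * Jb = 1 := by
      show LinearMap.baseChange ℤ_[r] J * LinearMap.baseChange ℤ_[r] J = 1
      rw [← LinearMap.baseChange_mul, hJJ, LinearMap.baseChange_one]
    exact LinearMap.congr_fun this x
  have hJT : ∀ i, Commute Jb (T i) := fun i => by
    have h0 : Commute J (t i - a i • (1 : Module.End ℤ Λ)) :=
      Commute.sub_right (hJt i) ((Commute.one_right _).smul_right _)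
    show LinearMap.baseChange ℤ_[r] _ * LinearMap.baseChange ℤ_[r] _ = _
    rw [← LinearMap.baseChange_mul, h0.eq, LinearMap.baseChange_mul]
  have htrL : ∀ f ∈ Algebra.adjoin ℤ_[r] (Set.range T),
      LinearMap.trace ℤ_[r] (ℤ_[r] ⊗[ℤ] Λ) (f * Jb) = 0 := fun f hf =>
    trace_baseChange_mul_eq_zero ℤ_[r] t a J htr f hf
  -- the `ℤ_[r]`-module structure on `V`
  have hrV : ∀ v : V, (r ^ k) • v = 0 := by
    intro v
    obtain ⟨Φ, rfl⟩ := hθ v
    rw [← map_nsmul, hker]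
    exact ⟨Φ, rfl⟩
  letI : Module (ZMod (r ^ k)) V := AddCommGroup.zmodModule hrV
  letI : Module ℤ_[r] V := Module.compHom V (PadicInt.toZModPow (p := r) k)
  have hsmulV : ∀ (c : ℤ_[r]) (v : V), c • v = (PadicInt.toZModPow k c) • v := fun _ _ => rfl
  have haddhom : ∀ (g : V →+ V) (c : ℤ_[r]) (v : V), g (c • v) = c • g v := fun g c v => by
    rw [hsmulV, hsmulV, ZMod.map_smul]
  have hrk : ∀ v : V, ((r : ℤ_[r]) ^ k) • v = 0 := fun v => by
    have : ((r : ℤ_[r]) ^ k) = ((r ^ k : ℕ) : ℤ_[r]) := by push_cast; rfl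
    rw [this, Nat.cast_smul_eq_nsmul, hrV]
  let π₀ℓ : (ℤ_[r] ⊗[ℤ] Λ) →ₗ[ℤ_[r]] V := LinearMap.liftBaseChange ℤ_[r] θ.toIntLinearMap
  have hπtmul : ∀ (c : ℤ_[r]) (Φ : Λ), π₀ℓ (c ⊗ₜ[ℤ] Φ) = c • θ Φ := fun c Φ =>
    LinearMap.liftBaseChange_tmul ℤ_[r] θ.toIntLinearMap c Φ
  let π₀ : (ℤ_[r] ⊗[ℤ] Λ) →+ V := π₀ℓ.toAddMonoidHom
  have hπ₀apply : ∀ x, π₀ x = π₀ℓ x := fun _ => rfl
  have hπ₀ : Function.Surjective π₀ := by
    intro v
    obtain ⟨Φ, rfl⟩ := hθ v
    exact ⟨(1 : ℤ_[r]) ⊗ₜ[ℤ] Φ, by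
      rw [hπ₀apply, hπtmul, one_smul]⟩
  -- every element is `1 ⊗ Φ` modulo `r^k`
  have hdecomp : ∀ x : ℤ_[r] ⊗[ℤ] Λ, ∃ (Φ : Λ) (y : ℤ_[r] ⊗[ℤ] Λ),
      x = (1 : ℤ_[r]) ⊗ₜ[ℤ] Φ + ((r : ℤ_[r]) ^ k) • y := by
    intro x
    induction x using TensorProduct.induction_on with
    | zero => exact ⟨0, 0, by rw [tmul_zero, smul_zero, add_zero]⟩
    | tmul c Φ =>
      obtain ⟨d, hd⟩ := Ideal.mem_span_singleton'.1 (PadicInt.appr_spec k c)
      refine ⟨(c.appr k) • Φ, d ⊗ₜ[ℤ] Φ, ?_⟩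
      have hc : c = ((c.appr k : ℕ) : ℤ_[r]) + (r : ℤ_[r]) ^ k * d := by
        rw [mul_comm, hd]; ring
      have h1 : (1 : ℤ_[r]) ⊗ₜ[ℤ] ((c.appr k) • Φ) = ((c.appr k : ℕ) : ℤ_[r]) ⊗ₜ[ℤ] Φ := by
        rw [← natCast_zsmul, ← TensorProduct.smul_tmul, natCast_zsmul, nsmul_eq_mul, mul_one]
      rw [h1, TensorProduct.smul_tmul', smul_eq_mul, ← TensorProduct.add_tmul, ← hc]
    | add x y hx hy =>
      obtain ⟨Φ, x', rfl⟩ := hx
      obtain ⟨Ψ, y', rfl⟩ := hy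
      refine ⟨Φ + Ψ, x' + y', ?_⟩
      rw [tmul_add, smul_add]
      abel
  have hker₀ : ∀ x, π₀ x = 0 ↔ ∃ y, x = ((r : ℤ_[r]) ^ k) • y := by
    intro x
    constructor
    · intro hx
      obtain ⟨Φ, y, rfl⟩ := hdecomp x
      have h1 : π₀ℓ ((1 : ℤ_[r]) ⊗ₜ[ℤ] Φ + ((r : ℤ_[r]) ^ k) • y) = 0 := by
        rw [← hπ₀apply]; exact hx
      rw [map_add, map_smul, hrk, add_zero, hπtmul, one_smul] at h1
      obtain ⟨Ψ, rfl⟩ := (hker Φ).1 h1
      refine ⟨(1 : ℤ_[r]) ⊗ₜ[ℤ] Ψ + y, ?_⟩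
      rw [smul_add]
      congr 1
      rw [← natCast_zsmul, ← TensorProduct.smul_tmul, natCast_zsmul, TensorProduct.smul_tmul',
        nsmul_eq_mul, mul_one, smul_eq_mul, mul_one]
      push_cast
      rfl
    · rintro ⟨y, rfl⟩
      rw [hπ₀apply, map_smul, hrk]
  -- compatibility with the operators
  have hDV : ∀ i x, π₀ (T i x) = (TV i - a i • (1 : Module.End ℤ V)) (π₀ x) := by
    intro i x
    induction x using TensorProduct.induction_on with
    | zero => rw [map_zero, map_zero, map_zero]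
    | tmul c Φ =>
      rw [hπ₀apply, hπ₀apply]
      show π₀ℓ ((LinearMap.baseChange ℤ_[r] (t i - a i • (1 : Module.End ℤ Λ))) (c ⊗ₜ[ℤ] Φ))
        = (TV i - a i • (1 : Module.End ℤ V)) (π₀ℓ (c ⊗ₜ[ℤ] Φ))
      rw [LinearMap.baseChange_tmul, hπtmul, hπtmul, LinearMap.sub_apply, LinearMap.smul_apply,
        Module.End.one_apply, map_sub, hTV, map_zsmul, LinearMap.sub_apply, LinearMap.smul_apply,
        Module.End.one_apply]
      have h1 : TV i (c • θ Φ) = c • TV i (θ Φ) := haddhom (TV i).toAddMonoidHom c (θ Φ)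
      rw [h1, smul_sub, smul_comm]
    | add x y hx hy => rw [map_add, map_add, hx, hy, map_add, map_add]
  have hcV' : ∀ x, π₀ (Jb x) = cV (π₀ x) := by
    intro x
    induction x using TensorProduct.induction_on with
    | zero => rw [map_zero, map_zero, map_zero]
    | tmul c Φ =>
      rw [hπ₀apply, hπ₀apply]
      show π₀ℓ ((LinearMap.baseChange ℤ_[r] J) (c ⊗ₜ[ℤ] Φ)) = cV (π₀ℓ (c ⊗ₜ[ℤ] Φ))
      rw [LinearMap.baseChange_tmul, hπtmul, hπtmul, hcV]
      exact (haddhom cV.toAddMonoidHom c (θ Φ)).symm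
    | add x y hx hy => rw [map_add, map_add, hx, hy, map_add, map_add]
  have hr0 : (r : ℤ_[r]) ≠ 0 := Nat.cast_ne_zero.2 (Fact.out : r.Prime).ne_zero
  exact card_genKer_le_of_lattice T hT Jb hJb hJT htrL (r : ℤ_[r]) hr0
    PadicInt.maximalIdeal_eq_span_p k π₀ hπ₀ hker₀ _ cV hDV hcV'

end Lattice

end Fermat.Agent.GZ.Num.LatAllK
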