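/-
GATE-Z (S15) / node (NUM**) = GZ-NUM, file 5 (helper46): **the instance of `LatAllK.card_genKer_le`
at the lattice `Λ = Lam N = Hom_par(Γ₀(N), ℤ)`** with `t i = latT N (q i)`, `J = -latI N`
(the analytic input `GK/Tate/TraceInvol.trace_mul_latI`, from Eichler–Shimura S21).
-/
import Mathlib
import Fermat.Agent.GZ.Num.LatAllK
import Fermat.Agent.GK.Tate.TraceInvol

set_option autoImplicit false

namespace Fermat.Agent.GZ.Num.LatInst

open Fermat.Agent.GJ.J2.Lat Fermat.Agent.GK.TraceInvol Fermat.Agent.GZ.Num.LatAllK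
  Fermat.Agent.GZ.Num.AllK

variable (N : ℕ) [NeZero N] {ι : Type} (q : ι → Nat.Primes)

/-- the ring generated by a subfamily of the lattice Hecke operators lies in `latAlg` -/
theorem adjoin_le_latAlg :
    Algebra.adjoin ℤ (Set.range fun i => latT N (q i)) ≤ latAlg N :=
  Algebra.adjoin_mono (by
    rintro _ ⟨i, rfl⟩
    exact ⟨q i, rfl⟩)

/-- **NUM** on `Λ = Lam N`.**  For every prime `r` (`r = 2` allowed), every `k`, every finite
abelian group `V` with `θ : Λ →+ V` onto, of kernel `r^k Λ`, intertwining `latT N (q i)` with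
`TV i` and `latI N` with `-cV`: the generalised eigenspace `E` of the `TV i - a i` satisfies
`#E ≤ #E[2]^3 * #((1 + cV) E)^2`. -/
theorem card_genKer_le_lam (r : ℕ) [Fact r.Prime] (a : ι → ℤ) (k : ℕ)
    {V : Type*} [AddCommGroup V] [Finite V] (θ : Lam N →+ V) (hθ : Function.Surjective θ)
    (hker : ∀ Φ, θ Φ = 0 ↔ ∃ Ψ, Φ = (r ^ k : ℕ) • Ψ)
    (TV : ι → Module.End ℤ V) (cV : Module.End ℤ V)
    (hTV : ∀ i Φ, θ (latT N (q i) Φ) = TV i (θ Φ))
    (hcV : ∀ Φ, θ (latI N Φ) = -cV (θ Φ)) :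
    Nat.card ↥(genKerAdd fun i => TV i - a i • (1 : Module.End ℤ V)) ≤
      Nat.card ↥((genKerAdd fun i => TV i - a i • (1 : Module.End ℤ V)) ⊓ twoTors V) ^ 3 *
        Nat.card ↥((genKerAdd fun i => TV i - a i • (1 : Module.End ℤ V)).map
          ((1 + cV : Module.End ℤ V).toAddMonoidHom)) ^ 2 := by
  refine card_genKer_le (fun i => latT N (q i)) (fun i j => latT_commute N (q i) (q j))
    (-latI N) ?_ ?_ ?_ r a k θ hθ hker TV cV hTV ?_
  · intro x
    rw [LinearMap.neg_apply, LinearMap.neg_apply, map_neg, neg_neg, latI_latI]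
  · intro i
    have h : Commute (latI N) (latT N (q i)) := by
      refine LinearMap.ext fun Φ => ?_
      rw [Module.End.mul_apply, Module.End.mul_apply, latT_latI]
    exact h.neg_left
  · intro s hs
    rw [mul_neg, map_neg, trace_mul_latI N s (adjoin_le_latAlg N q hs), neg_zero]
  · intro Φ
    rw [LinearMap.neg_apply, map_neg, hcV, neg_neg]

end Fermat.Agent.GZ.Num.LatInst
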