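/-
GATE-Z (S15, Mazur block) / node (NUM**), J-PLUG, file 1 (helper10, for helper46 6160 §4):
**the `J`-side dictionary for the lattice count.**

`p` a level, `m` a modulus, `V := torsionBy ℤ (JZero p) m = J₀(p)(ℚ̄)[m]`:

* `thetaJ p m : Lam p →+ V`        := `kumTorsionBy ∘ thetaLat` (at `ζ_m = exp (2πi/m)`);
* `thetaJ_surjective`, `thetaJ_eq_zero_iff : thetaJ Φ = 0 ↔ ∃ Ψ, Φ = m • Ψ`;
* `TV p m q : Module.End ℤ V`      := `heckeOperatorBar p q` restricted to `V`;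
* `thetaJ_latT`  (`q ∤ p`)         : `thetaJ (latT p q Φ) = TV q (thetaJ Φ)`;
* `cV p m : Module.End ℤ V`        := `complexConjugation • ·`;
* `thetaJ_neg_latI`                : `thetaJ (-(latI p Φ)) = cV (thetaJ Φ)`.
-/
import Mathlib
import Fermat.Agent.GZ.Num.ThetaConj.ThetaLatConj
import Fermat.Agent.GZ.HeckeTors.Compat
import Fermat.Agent.GK.UQ.LatU

set_option autoImplicit false
set_option linter.unusedSectionVars false

noncomputable section

namespace Fermat.Agent.GZ.Num.PlugJ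

open AlgebraicCurve ModularCurve
open Fermat.Agent.GJ.KumGroup Fermat.Agent.GJ.Kum.KumType Fermat.Agent.GJ.KumTower
open Fermat.Agent.GK.UQ
open Fermat.Agent.GJ.J2.Lat Fermat.Agent.GK.TraceInvol
open Fermat.Agent.GH.S32.KumEquivariant Fermat.Agent.GZ.HeckeTors
open Fermat.Agent.GZ.Num.ThetaLatConj

local notation "GQ" => (AlgebraicClosure ℚ ≃ₐ[ℚ] AlgebraicClosure ℚ)

variable (p : ℕ) [NeZero p] (m : ℕ) [NeZero m]

/-- `J₀(p)(ℚ̄)[m]` -/
abbrev VJ : Type := ↥(Submodule.torsionBy ℤ (JZero p) (m : ℤ))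

/-- `ζ_m = exp (2πi/m)` -/
def zetaM : ℂ := Complex.exp (2 * Real.pi * Complex.I / m)

omit [NeZero p] in
theorem zetaM_prim : IsPrimitiveRoot (zetaM m) m :=
  Complex.isPrimitiveRoot_exp m (NeZero.ne m)

/-- the Kummer parametrisation `Λ → J₀(p)[m]` -/
def thetaJ : Lam p →+ VJ p m :=
  (kumTorsionBy p m).toAddMonoidHom.comp (thetaLat p m (zetaM_prim m))

theorem thetaJ_apply (Φ : Lam p) :
    thetaJ p m Φ = kumTorsionBy p m (thetaLat p m (zetaM_prim m) Φ) := rfl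

theorem thetaJ_surjective : Function.Surjective (thetaJ p m) := by
  intro v
  obtain ⟨x, hx⟩ := (kumTorsionBy p m).surjective v
  obtain ⟨Φ, hΦ⟩ := thetaLat_surjective p m (zetaM_prim m) x
  exact ⟨Φ, by rw [thetaJ_apply, hΦ, hx]⟩

theorem thetaJ_eq_zero_iff (Φ : Lam p) : thetaJ p m Φ = 0 ↔ ∃ Ψ : Lam p, Φ = m • Ψ := by
  rw [thetaJ_apply, AddEquiv.map_eq_zero_iff, thetaLat_eq_zero_iff]

/-! ### The Hecke operators -/

/-- `T_q` on `J₀(p)[m]` -/
def TV (q : Nat.Primes) : Module.End ℤ (VJ p m) :=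
  (heckeOperatorBar p q).restrict (p := Submodule.torsionBy ℤ (JZero p) (m : ℤ))
    (q := Submodule.torsionBy ℤ (JZero p) (m : ℤ)) (fun x hx => by
      rw [Submodule.mem_torsionBy_iff] at hx ⊢
      rw [← map_smul, hx, map_zero])

theorem coe_TV (q : Nat.Primes) (v : VJ p m) :
    ((TV p m q v : VJ p m) : JZero p) = heckeOperatorBar p q (v : JZero p) := rfl

/-- the model operator is `TEnd` -/
theorem Mm_T_eq_TEnd {ℓ : ℕ} (hℓ : ℓ.Prime) (hℓp : ¬ ℓ ∣ p) (x : Additive (Kum Kb (FK p) m)) :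
    (Mm p m).T ℓ x =
      @TEnd p ℓ ⟨hℓ.ne_zero⟩ m (Fermat.Agent.GJ.KumFinal.hnMemHyp p hℓ hℓp)
        (Fermat.Agent.GJ.KumFinal.hnDivHyp p m hℓ hℓp) x := by
  obtain ⟨u, rfl⟩ := exists_rep (K := Kb) (F := FK p) (p := m) x
  exact (Mm_T_mk p m hℓ hℓp u).trans rfl

/-- **`thetaJ` intertwines `latT` with `T_q`**, `q ∤ p` -/
theorem thetaJ_latT (q : Nat.Primes) (hq : ¬ (q : ℕ) ∣ p) (Φ : Lam p) :
    thetaJ p m (latT p q Φ) = TV p m q (thetaJ p m Φ) := by
  have : Fact (q : ℕ).Prime := ⟨q.2⟩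
  apply Subtype.ext
  rw [coe_TV, thetaJ_apply, thetaJ_apply]
  have h1 := thetaLat_latT_of_not_dvd p m (zetaM_prim m) (ℓ := (q : ℕ)) hq
    (Fermat.Agent.GJ.KumFinal.hnMemHyp p q.2 hq) (Fermat.Agent.GJ.KumFinal.hnDivHyp p m q.2 hq) Φ
  have h2 : (⟨(q : ℕ), q.2⟩ : Nat.Primes) = q := Subtype.ext rfl
  rw [h2] at h1
  rw [h1, ← Mm_T_eq_TEnd p m q.2 hq]
  have h3 := coe_kumTorsionBy_T p m q.2 hq (thetaLat p m (zetaM_prim m) Φ)
  rw [h2] at h3
  exact h3

/-! ### Complex conjugation -/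

/-- complex conjugation on `J₀(p)[m]` -/
def cV : Module.End ℤ (VJ p m) :=
  AddMonoidHom.toIntLinearMap
    { toFun := fun v =>
        ⟨complexConjugation • (v : JZero p), smul_mem_torsionBy p m complexConjugation v.2⟩
      map_zero' := Subtype.ext (smul_zero _)
      map_add' := fun _ _ => Subtype.ext (smul_add _ _ _) }

theorem coe_cV (v : VJ p m) :
    ((cV p m v : VJ p m) : JZero p) = complexConjugation • (v : JZero p) := rfl

/-- **`thetaJ` intertwines `-latI` with complex conjugation** -/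
theorem thetaJ_neg_latI (Φ : Lam p) : thetaJ p m (-(latI p Φ)) = cV p m (thetaJ p m Φ) := by
  apply Subtype.ext
  rw [coe_cV, thetaJ_apply, thetaJ_apply, coe_kumTorsionBy_thetaLat_conj, map_neg, map_neg,
    Submodule.coe_neg]

end Fermat.Agent.GZ.Num.PlugJ
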