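/-
GATE-Z (S15) / node (NUM**) = GZ-NUM, file 6 (helper46): **uniform nilpotency on a generalised
kernel** — the bridge between `LatAllK.genKerAdd` and the pinned spelling of the Eisenstein part
(`GZ/F/Pin.eisPart`: "some `N` such that all products of `N` operators kill `x`").

`V` a finite abelian group, `D : ι → End_ℤ V` pairwise commuting:

* `exists_uniform` : `∃ N, ∀ l : List ι, l.length = N → ∀ v ∈ genKerAdd D, (l.map D).prod v = 0`
  (Artinian stabilisation of `𝔞^n E` + Nakayama, `𝔞 = (X i)` in `MvPolynomial ι ℤ`);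
* `mem_genKerAdd_of_uniform` : the converse (constant lists);
* `mem_genKerAdd_iff_uniform`.

Mathlib + `GZ/Num/{GenEig,LatAllK}`.
-/
import Mathlib
import Fermat.Agent.GZ.Num.LatAllK

set_option autoImplicit false

namespace Fermat.Agent.GZ.Num.UniformN

open Fermat.Agent.GZ.Num.GenEig Fermat.Agent.GZ.Num.LatAllK

variable {ι : Type} {V : Type*} [AddCommGroup V]

/-- the converse: a vector killed by all products of `N` operators is a generalised common
eigenvector -/
theorem mem_genKerAdd_of_uniform (D : ι → Module.End ℤ V) {v : V}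
    (h : ∃ N : ℕ, ∀ l : List ι, l.length = N → (l.map D).prod v = 0) : v ∈ genKerAdd D := by
  obtain ⟨N, hN⟩ := h
  intro i
  refine ⟨N, ?_⟩
  have := hN (List.replicate N i) (List.length_replicate)
  rwa [List.map_replicate, List.prod_replicate] at this

/-- **uniform nilpotency**: on the generalised common kernel of a commuting family on a finite
group, all products of `N` operators vanish, for some `N`. -/
theorem exists_uniform [Finite V] (D : ι → Module.End ℤ V) (hD : ∀ i j, Commute (D i) (D j)) :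
    ∃ N : ℕ, ∀ l : List ι, l.length = N → ∀ v ∈ genKerAdd D, (l.map D).prod v = 0 := by
  classical
  letI : Module (MvPolynomial ι ℤ) V := polyModule D hD
  have hsmul : ∀ (P : MvPolynomial ι ℤ) (x : V), P • x = polyAct D hD P x := fun _ _ => rfl
  set G : Set (MvPolynomial ι ℤ) := Set.range (MvPolynomial.X : ι → MvPolynomial ι ℤ) with hG
  set 𝔞 : Ideal (MvPolynomial ι ℤ) := Ideal.span G with h𝔞
  set E : Submodule (MvPolynomial ι ℤ) V := genKer G with hE
  have hXn : ∀ (i : ι) (n : ℕ) (v : V),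
      (MvPolynomial.X i : MvPolynomial ι ℤ) ^ n • v = (D i ^ n) v := by
    intro i n v
    rw [hsmul, map_pow, polyAct_X]
  have hmemE : ∀ v : V, v ∈ E ↔ v ∈ genKerAdd D := by
    intro v
    rw [hE, mem_genKer, mem_genKerAdd]
    constructor
    · intro h i
      obtain ⟨n, hn⟩ := h _ ⟨i, rfl⟩
      exact ⟨n, by rw [← hXn, hn]⟩
    · rintro h _ ⟨i, rfl⟩
      obtain ⟨n, hn⟩ := h i
      exact ⟨n, by rw [hXn, hn]⟩
  -- the chain `𝔞^n • E` stabilises
  let f : ℕ →o (Submodule (MvPolynomial ι ℤ) V)ᵒᵈ :=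
    { toFun := fun n => OrderDual.toDual (𝔞 ^ n • E)
      monotone' := by
        intro n m hnm
        show 𝔞 ^ m • E ≤ 𝔞 ^ n • E
        exact Submodule.smul_mono_left (Ideal.pow_le_pow_right hnm) }
  obtain ⟨N, hN⟩ := IsArtinian.monotone_stabilizes f
  have hstab : 𝔞 ^ N • E = 𝔞 ^ (N + 1) • E := by
    have := hN (N + 1) (Nat.le_succ N)
    exact congrArg OrderDual.ofDual this
  set W : Submodule (MvPolynomial ι ℤ) V := 𝔞 ^ N • E with hW
  have hWE : W ≤ E := Submodule.smul_le.2 fun r _ n hn => E.smul_mem r hn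
  have hWle : W ≤ 𝔞 • W := by
    rw [hW, ← Submodule.smul_assoc, smul_eq_mul, ← pow_succ', ← hstab]
  obtain ⟨ρ, hρ, hρW⟩ := Submodule.exists_sub_one_mem_and_smul_eq_zero_of_fg_of_le_smul 𝔞 W
    (IsNoetherian.noetherian W) hWle
  have hWbot : ∀ w ∈ W, w = 0 := by
    intro w hw
    have hm : (1 - ρ) ∈ 𝔞 := by
      have := 𝔞.neg_mem hρ
      rwa [neg_sub] at this
    obtain ⟨n, hn⟩ := exists_pow_smul_eq_zero_of_mem_span (hWE hw) hm
    have h1 : ∀ x ∈ W, (1 - ρ) • x = x := fun x hx => by
      rw [sub_smul, one_smul, hρW x hx, sub_zero]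
    have h2 : ∀ j : ℕ, (1 - ρ) ^ j • w = w := by
      intro j
      induction j with
      | zero => rw [pow_zero, one_smul]
      | succ j ih => rw [pow_succ, mul_smul, h1 w hw, ih]
    rw [← h2 n, hn]
  -- products of `N` variables lie in `𝔞^N`
  have hprod : ∀ l : List ι, (l.map (MvPolynomial.X : ι → MvPolynomial ι ℤ)).prod ∈ 𝔞 ^ l.length := by
    intro l
    induction l with
    | nil => rw [List.map_nil, List.prod_nil, List.length_nil, pow_zero, Ideal.one_eq_top]; trivial
    | cons i l ih =>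
      rw [List.map_cons, List.prod_cons, List.length_cons, pow_succ']
      exact Ideal.mul_mem_mul (Ideal.subset_span ⟨i, rfl⟩) ih
  refine ⟨N, fun l hl v hv => ?_⟩
  have h1 : (l.map D).prod = polyAct D hD (l.map (MvPolynomial.X : ι → MvPolynomial ι ℤ)).prod := by
    rw [map_list_prod, List.map_map]
    congr 1
    refine List.map_congr_left fun i _ => ?_
    rw [Function.comp_apply, polyAct_X]
  rw [h1, ← hsmul]
  apply hWbot
  have := hprod l
  rw [hl] at this
  exact Submodule.smul_mem_smul this ((hmemE v).2 hv)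

theorem mem_genKerAdd_iff_uniform [Finite V] (D : ι → Module.End ℤ V)
    (hD : ∀ i j, Commute (D i) (D j)) :
    ∃ N : ℕ, ∀ v : V, v ∈ genKerAdd D ↔ ∀ l : List ι, l.length = N → (l.map D).prod v = 0 := by
  obtain ⟨N, hN⟩ := exists_uniform D hD
  exact ⟨N, fun v => ⟨fun hv l hl => hN l hl v hv,
    fun h => mem_genKerAdd_of_uniform D ⟨N, h⟩⟩⟩

end Fermat.Agent.GZ.Num.UniformN
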