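/-
GATE-Z (S15, Mazur block) / node (NUM**), J-PLUG, file 2 (helper10, for helper46 6160 §4):
**(NUM**) on the Eisenstein part `V_k = eisPart p S r k` of `J₀(p)[r^k]`**, binder-free:

    `#V_k ≤ r^(6g) · #((1 + c) V_k)^2`,     `g = dim S₂(Γ₀(p))`, `c` = complex conjugation,

for EVERY prime `r` (`r = 2` allowed), every `k`, every finite `S`, `p` prime.  This is the `hnum`
binder of `GZ/F/SB/SelBound.selBound_eisPart` (helper7) VERBATIM (`hnum_eisSub`) and in plain
`AddSubgroup.map` form (`card_eisPart_le_sq`).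

Proof: helper46's `LatInst.card_genKer_le_lam` at `V := J₀(p)[r^k]`, `θ := kumTorsionBy ∘ thetaLat`
(`PlugJ`), `TV i := T_{q i}`, `cV := c`; the generalised eigenspace of the `T_q − (q+1)` on `V` IS
`eisPart` (helper46's `UniformN.exists_uniform`); `E[2] ⊆ J₀(p)[2]` has at most `2^(2g)` elements.
-/
import Mathlib
import Fermat.Agent.GZ.Num.PlugJ
import Fermat.Agent.GZ.Num.LatInst
import Fermat.Agent.GZ.Num.UniformN
import Fermat.Agent.GZ.Const.EisPart
import Fermat.Agent.GZ.Dev.Real

set_option autoImplicit false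
set_option linter.unusedSectionVars false

noncomputable section

namespace Fermat.Agent.GZ.Num.Plug

open AlgebraicCurve ModularCurve CongruenceSubgroup
open Fermat.Agent.GJ.J2.Lat Fermat.Agent.GK.TraceInvol
open Fermat.Agent.GZ.F Fermat.Agent.GZ.Num.PlugJ Fermat.Agent.GZ.Num.LatAllK
open Fermat.Agent.GZ.Num.AllK Fermat.Agent.GZ.Num.LatInst Fermat.Agent.GZ.Num.UniformN
open Fermat.Agent.GZ.Const.EisPart

local notation "GQ" => (AlgebraicClosure ℚ ≃ₐ[ℚ] AlgebraicClosure ℚ)

variable (p : ℕ) [NeZero p] (hp : p.Prime) (S : Finset ℕ) (m : ℕ) [NeZero m]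

/-- the good primes -/
abbrev Idx : Type := {q : Nat.Primes // (q : ℕ) ∉ S ∧ (q : ℕ) ≠ p}

/-- the Eisenstein operator `T_q − (q+1)` on `J₀(p)[m]` -/
def DV (i : Idx p S) : Module.End ℤ (VJ p m) :=
  TV p m i.1 - ((((i.1 : Nat.Primes) : ℕ) : ℤ) + 1) • (1 : Module.End ℤ (VJ p m))

theorem coe_DV (i : Idx p S) (v : VJ p m) :
    ((DV p S m i v : VJ p m) : JZero p) = eisOp p i.1 (v : JZero p) := by
  rw [DV, LinearMap.sub_apply, LinearMap.smul_apply, Module.End.one_apply, eisOp_apply]
  rfl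

theorem coe_prod_DV (l : List (Idx p S)) (v : VJ p m) :
    ((((l.map (DV p S m)).prod v : VJ p m)) : JZero p) =
      eisProd p (l.map (fun i => i.1)) (v : JZero p) := by
  induction l with
  | nil => rw [List.map_nil, List.prod_nil, List.map_nil, eisProd_nil]; rfl
  | cons i l ih =>
    rw [List.map_cons, List.prod_cons, List.map_cons, eisProd_cons, Module.End.mul_apply, coe_DV, ih]

theorem goodList_map_val (l : List (Idx p S)) : GoodList p S (l.map (fun i => i.1)) := by
  intro q hq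
  obtain ⟨i, _, rfl⟩ := List.mem_map.1 hq
  exact i.2

/-- every good list comes from a list of indices -/
theorem exists_list_idx (l : List Nat.Primes) (hl : GoodList p S l) :
    ∃ l' : List (Idx p S), l'.map (fun i => i.1) = l ∧ l'.length = l.length := by
  refine ⟨l.pmap (fun q h => (⟨q, h⟩ : Idx p S)) hl, ?_, List.length_pmap⟩
  rw [List.map_pmap]
  simp

include hp in
theorem commute_DV (i j : Idx p S) : Commute (DV p S m i) (DV p S m j) := by
  refine LinearMap.ext fun v => Subtype.ext ?_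
  rw [Module.End.mul_apply, Module.End.mul_apply, coe_DV, coe_DV, coe_DV, coe_DV]
  have hv : m • (v : JZero p) = 0 := by
    have := v.2
    rw [Submodule.mem_torsionBy_iff, natCast_zsmul] at this
    exact this
  have hfin : IsOfFinAddOrder (v : JZero p) :=
    isOfFinAddOrder_iff_nsmul_eq_zero.mpr ⟨m, Nat.pos_of_ne_zero (NeZero.ne m), hv⟩
  have h : heckeOperatorBar p i.1 (heckeOperatorBar p j.1 (v : JZero p)) =
      heckeOperatorBar p j.1 (heckeOperatorBar p i.1 (v : JZero p)) :=
    Fermat.Agent.GZ.HeckeTors.hecke_comm_tors p i.1.2 (not_dvd_of_ne hp i.2.2) j.1.2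
      (not_dvd_of_ne hp j.2.2) (v : JZero p) hfin
  rw [eisOp_apply, eisOp_apply, eisOp_apply, eisOp_apply, map_sub, map_sub, map_zsmul, map_zsmul,
    h]
  module

instance finite_VJ : Finite (VJ p m) := by
  apply Nat.finite_of_card_ne_zero
  rw [Fermat.Agent.GH.TorsionCount.natCard_torsionBy_JZero p m (NeZero.ne m)]
  exact pow_ne_zero _ (NeZero.ne m)

variable (r : ℕ) (k : ℕ)

include hp in
/-- **the Eisenstein part is the generalised eigenspace** of the `T_q − (q+1)` on `J₀(p)[r^k]` -/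
theorem mem_eisPart_iff [NeZero (r ^ k)] (x : JZero p) :
    x ∈ eisPart p S r k ↔
      ∃ v : VJ p (r ^ k), v ∈ genKerAdd (DV p S (r ^ k)) ∧ (v : JZero p) = x := by
  constructor
  · rintro ⟨h1, N, hN⟩
    have hx : x ∈ Submodule.torsionBy ℤ (JZero p) ((r ^ k : ℕ) : ℤ) := by
      rw [Submodule.mem_torsionBy_iff, natCast_zsmul]
      exact h1
    refine ⟨⟨x, hx⟩, mem_genKerAdd_of_uniform _ ⟨N, fun l hl => Subtype.ext ?_⟩, rfl⟩
    rw [coe_prod_DV]
    exact hN _ (by rw [List.length_map, hl]) (goodList_map_val p S l)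
  · rintro ⟨v, hv, rfl⟩
    have h1 : r ^ k • (v : JZero p) = 0 := by
      have := v.2
      rw [Submodule.mem_torsionBy_iff, natCast_zsmul] at this
      exact this
    obtain ⟨N, hN⟩ := exists_uniform (DV p S (r ^ k)) (commute_DV p hp S (r ^ k))
    refine ⟨h1, N, fun l hl hgood => ?_⟩
    obtain ⟨l', hl', hlen⟩ := exists_list_idx p S l hgood
    have := congrArg Subtype.val (hN l' (by rw [hlen, hl]) v hv)
    rw [coe_prod_DV, hl'] at this
    exact this

/-- `1 + c` on `J₀(p)(ℚ̄)` -/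
def onePlusC : JZero p →+ JZero p :=
  AddMonoidHom.id (JZero p) + DistribSMul.toAddMonoidHom (JZero p) complexConjugation

theorem onePlusC_apply (x : JZero p) : onePlusC p x = x + complexConjugation • x := rfl

include hp in
/-- the generalised eigenspace maps isomorphically onto `eisPart` -/
theorem map_genKerAdd_eq [NeZero (r ^ k)] :
    (genKerAdd (DV p S (r ^ k))).map
        (Submodule.torsionBy ℤ (JZero p) ((r ^ k : ℕ) : ℤ)).subtype.toAddMonoidHom =
      eisPart p S r k := by
  ext x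
  rw [mem_eisPart_iff p hp S r k x]
  exact Iff.rfl

include hp in
/-- **(NUM**) on `eisPart`**, `AddSubgroup.map` form -/
theorem card_eisPart_le_sq [Fact r.Prime] :
    Nat.card ↥(eisPart p S r k) ≤
      r ^ (6 * Module.finrank ℂ (CuspForm (Gamma0 p) 2)) *
        Nat.card ↥((eisPart p S r k).map (onePlusC p)) ^ 2 := by
  have hr : r.Prime := Fact.out
  have : NeZero (r ^ k) := ⟨pow_ne_zero k hr.ne_zero⟩
  set ι : Type := Idx p S
  set a : ι → ℤ := fun i => (((i.1 : Nat.Primes) : ℕ) : ℤ) + 1 with ha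
  set sub : VJ p (r ^ k) →+ JZero p :=
    (Submodule.torsionBy ℤ (JZero p) ((r ^ k : ℕ) : ℤ)).subtype.toAddMonoidHom with hsub
  have hsubinj : Function.Injective sub := Subtype.val_injective
  have key := card_genKer_le_lam p (fun i : ι => i.1) r a k (thetaJ p (r ^ k))
    (thetaJ_surjective p (r ^ k)) (thetaJ_eq_zero_iff p (r ^ k))
    (fun i => TV p (r ^ k) i.1) (cV p (r ^ k))
    (fun i Φ => thetaJ_latT p (r ^ k) i.1 (not_dvd_of_ne hp i.2.2) Φ)
    (fun Φ => by
      have := thetaJ_neg_latI p (r ^ k) Φ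
      rw [map_neg] at this
      rw [← this, neg_neg])
  change Nat.card ↥(genKerAdd (DV p S (r ^ k))) ≤
    Nat.card ↥(genKerAdd (DV p S (r ^ k)) ⊓ twoTors (VJ p (r ^ k))) ^ 3 *
      Nat.card ↥((genKerAdd (DV p S (r ^ k))).map
        ((1 + cV p (r ^ k) : Module.End ℤ (VJ p (r ^ k))).toAddMonoidHom)) ^ 2 at key
  set E := genKerAdd (DV p S (r ^ k)) with hE
  -- `#E = #eisPart`
  have h1 : Nat.card ↥E = Nat.card ↥(eisPart p S r k) := by
    rw [← map_genKerAdd_eq p hp S r k]
    exact (Nat.card_congr (E.equivMapOfInjective sub hsubinj).toEquiv)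
  -- `#((1 + cV) E) = #((1 + c) eisPart)`
  have h2 : Nat.card ↥(E.map ((1 + cV p (r ^ k) : Module.End ℤ (VJ p (r ^ k))).toAddMonoidHom)) =
      Nat.card ↥((eisPart p S r k).map (onePlusC p)) := by
    rw [← map_genKerAdd_eq p hp S r k, AddSubgroup.map_map]
    have hcomp : (onePlusC p).comp sub =
        sub.comp ((1 + cV p (r ^ k) : Module.End ℤ (VJ p (r ^ k))).toAddMonoidHom) := by
      ext v
      rfl
    rw [hcomp, ← AddSubgroup.map_map]
    exact (Nat.card_congr ((E.map _).equivMapOfInjective sub hsubinj).toEquiv)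
  -- `#E[2] ≤ 2^(2g)`
  have h3 : Nat.card ↥(E ⊓ twoTors (VJ p (r ^ k))) ≤
      2 ^ (2 * Module.finrank ℂ (CuspForm (Gamma0 p) 2)) := by
    rw [← Fermat.Agent.GH.TorsionCount.natCard_torsionBy_JZero p 2 two_ne_zero]
    have : Finite ↥(Submodule.torsionBy ℤ (JZero p) ((2 : ℕ) : ℤ)) := by
      apply Nat.finite_of_card_ne_zero
      rw [Fermat.Agent.GH.TorsionCount.natCard_torsionBy_JZero p 2 two_ne_zero]
      exact pow_ne_zero _ two_ne_zero
    refine Nat.card_le_card_of_injective
      (fun v : ↥(E ⊓ twoTors (VJ p (r ^ k))) =>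
        (⟨((v : VJ p (r ^ k)) : JZero p), by
          rw [Submodule.mem_torsionBy_iff]
          have h : (v : VJ p (r ^ k)) + (v : VJ p (r ^ k)) = 0 := v.2.2
          have h' := congrArg (fun w : VJ p (r ^ k) => (w : JZero p)) h
          simp only [Submodule.coe_add, Submodule.coe_zero] at h'
          rw [Nat.cast_ofNat, two_smul]
          exact h'⟩ : ↥(Submodule.torsionBy ℤ (JZero p) ((2 : ℕ) : ℤ)))) ?_
    intro v w hvw
    apply Subtype.ext
    apply Subtype.ext
    exact congrArg (fun t : ↥(Submodule.torsionBy ℤ (JZero p) ((2 : ℕ) : ℤ)) => (t : JZero p)) hvw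
  have h4 : (2 ^ (2 * Module.finrank ℂ (CuspForm (Gamma0 p) 2))) ^ 3 ≤
      r ^ (6 * Module.finrank ℂ (CuspForm (Gamma0 p) 2)) := by
    rw [← pow_mul]
    have : 2 * Module.finrank ℂ (CuspForm (Gamma0 p) 2) * 3 =
        6 * Module.finrank ℂ (CuspForm (Gamma0 p) 2) := by ring
    rw [this]
    exact Nat.pow_le_pow_left hr.two_le _
  rw [h1, h2] at key
  calc Nat.card ↥(eisPart p S r k)
      ≤ Nat.card ↥(E ⊓ twoTors (VJ p (r ^ k))) ^ 3 *
          Nat.card ↥((eisPart p S r k).map (onePlusC p)) ^ 2 := key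
    _ ≤ r ^ (6 * Module.finrank ℂ (CuspForm (Gamma0 p) 2)) *
          Nat.card ↥((eisPart p S r k).map (onePlusC p)) ^ 2 :=
        Nat.mul_le_mul_right _ ((Nat.pow_le_pow_left h3 3).trans h4)

open Fermat.Agent.GZ.Dev in
include hp in
/-- the image of `1 + c` on the `G_ℚ`-module `V_k` (helper36's `eisSub`, helper90's `onePlus`) has
the cardinality of `(1 + c) V_k ⊆ J₀(p)` -/
theorem card_range_onePlus (hr : r ≠ 0) :
    Nat.card (onePlus complexConjugation : ↥(eisSub p hp S r k hr).U →+ _).range =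
      Nat.card ↥((eisPart p S r k).map (onePlusC p)) := by
  have hinj : Function.Injective (eisPart p S r k).subtype := Subtype.val_injective
  have hmap : ((onePlus complexConjugation : ↥(eisSub p hp S r k hr).U →+ _).range).map
      (eisPart p S r k).subtype = (eisPart p S r k).map (onePlusC p) := by
    ext x
    constructor
    · rintro ⟨_, ⟨u, rfl⟩, rfl⟩
      exact ⟨(u : JZero p), u.2, rfl⟩
    · rintro ⟨u, hu, rfl⟩
      exact ⟨_, ⟨⟨u, hu⟩, rfl⟩, rfl⟩
  rw [← hmap]
  exact Nat.card_congr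
    (((onePlus complexConjugation : ↥(eisSub p hp S r k hr).U →+ _).range).equivMapOfInjective
      (eisPart p S r k).subtype hinj).toEquiv

open Fermat.Agent.GZ.Dev in
include hp in
/-- **(NUM**) = the `hnum` binder of `GZ/F/SB/SelBound.selBound_eisPart` (helper7) VERBATIM**, with
`c := complexConjugation`, `C := 6 g`. -/
theorem hnum_eisSub (hr : r ≠ 0) [Fact r.Prime] :
    Nat.card ↥(eisSub p hp S r k hr).U ≤
      r ^ (6 * Module.finrank ℂ (CuspForm (Gamma0 p) 2)) *
        Nat.card (onePlus complexConjugation : ↥(eisSub p hp S r k hr).U →+ _).range ^ 2 := by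
  rw [card_range_onePlus p hp S r k hr]
  exact card_eisPart_le_sq p hp S r k

end Fermat.Agent.GZ.Num.Plug
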